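/-
S56 / block EC-IND, node (A0) : on a finite partial order there is an integer valued function whose
sum over every principal upper set is `1`.  Mathlib only.
-/
import Mathlib

set_option autoImplicit false

namespace Fermat.Agent.S56.EC.Ind

/-- (A0) -/
theorem exists_upper_sum_eq_one (P : Type) [PartialOrder P] [Fintype P] :
    ∃ c : P → ℤ, ∀ b : P, ∑ x, {x : P | b ≤ x}.indicator c x = 1 := by
  classical
  have wf : WellFounded (fun a b : P => b < a) := wellFounded_gt
  let F : ∀ b : P, (∀ y : P, b < y → ℤ) → ℤ :=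
    fun b ih => 1 - ∑ x : {x : P // b < x}, ih x.1 x.2
  have hc : ∀ b, wf.fix F b = 1 - ∑ x : {x : P // b < x}, wf.fix F x.1 := fun b => wf.fix_eq F b
  refine ⟨wf.fix F, fun b => ?_⟩
  have h1 : ∑ x : {x : P // b < x}, wf.fix F x.1 = ∑ x, if b < x then wf.fix F x else 0 := by
    rw [← Finset.sum_filter]
    exact (Finset.sum_subtype _ (fun x => by simp) _).symm
  have h2 : ∀ x, {x : P | b ≤ x}.indicator (wf.fix F) x =
      (if x = b then wf.fix F x else 0) + (if b < x then wf.fix F x else 0) := by
    intro x
    rw [Set.indicator_apply]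
    by_cases hxb : x = b
    · subst hxb
      simp
    · by_cases hlt : b < x
      · simp [hxb, hlt, hlt.le]
      · have hle : ¬ b ≤ x := fun h => hlt (lt_of_le_of_ne h (Ne.symm hxb))
        simp [hxb, hlt, hle]
  rw [Finset.sum_congr rfl (fun x _ => h2 x), Finset.sum_add_distrib, ← h1,
    Finset.sum_ite_eq' Finset.univ b, if_pos (Finset.mem_univ b), hc b]
  ring

end Fermat.Agent.S56.EC.Ind
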