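/-
S56 / block EC-IND, node (A1) : integers `c B` (`B` cyclic subgroup of `D`) with
`∑_{B ∋ y} c B = 1` for every `y`.  Mathlib only.
-/
import Fermat.Agent.S56.EC.Ind.Poset

set_option autoImplicit false

namespace Fermat.Agent.S56.EC.Ind

/-- (A1) -/
theorem exists_cyclic_coeff (D : Type) [Group D] [Finite D] [Fintype (Subgroup D)] :
    ∃ c : Subgroup D → ℤ, (∀ B : Subgroup D, ¬ IsCyclic B → c B = 0) ∧
      ∀ y : D, ∑ B, {B : Subgroup D | y ∈ B}.indicator c B = 1 := by
  classical
  obtain ⟨c0, hc0⟩ := exists_upper_sum_eq_one {B : Subgroup D // IsCyclic B}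
  refine ⟨fun B => if h : IsCyclic B then c0 ⟨B, h⟩ else 0, fun B hB => dif_neg hB, fun y => ?_⟩
  have hcyc : IsCyclic (Subgroup.zpowers y) := inferInstance
  have key := hc0 ⟨Subgroup.zpowers y, hcyc⟩
  rw [← key]
  have hsub : ∑ x : {B : Subgroup D // IsCyclic B},
      {x : {B : Subgroup D // IsCyclic B} | (⟨Subgroup.zpowers y, hcyc⟩ :
        {B : Subgroup D // IsCyclic B}) ≤ x}.indicator c0 x =
      ∑ x : {B : Subgroup D // IsCyclic B},
        {B : Subgroup D | y ∈ B}.indicator
          (fun B => if h : IsCyclic B then c0 ⟨B, h⟩ else 0) x.1 := by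
    refine Finset.sum_congr rfl fun x _ => ?_
    obtain ⟨B, hB⟩ := x
    rw [Set.indicator_apply, Set.indicator_apply]
    have hiff : ((⟨B, hB⟩ : {B : Subgroup D // IsCyclic B}) ∈
        {x : {B : Subgroup D // IsCyclic B} | (⟨Subgroup.zpowers y, hcyc⟩ :
          {B : Subgroup D // IsCyclic B}) ≤ x}) ↔ B ∈ {B : Subgroup D | y ∈ B} := by
      simp only [Set.mem_ofPred_eq, Subtype.mk_le_mk, Subgroup.zpowers_le]
    by_cases hy : B ∈ {B : Subgroup D | y ∈ B}
    · rw [if_pos hy, if_pos (hiff.2 hy), dif_pos hB]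
    · rw [if_neg hy, if_neg (fun h => hy (hiff.1 h))]
  rw [hsub]
  have hfil : ∑ B, {B : Subgroup D | y ∈ B}.indicator
      (fun B => if h : IsCyclic B then c0 ⟨B, h⟩ else 0) B =
      ∑ B ∈ Finset.univ.filter (fun B : Subgroup D => IsCyclic B),
        {B : Subgroup D | y ∈ B}.indicator
          (fun B => if h : IsCyclic B then c0 ⟨B, h⟩ else 0) B := by
    symm
    refine Finset.sum_subset (Finset.filter_subset _ _) fun B _ hB => ?_
    have hB' : ¬ IsCyclic B := by simpa using hB
    rw [Set.indicator_apply]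
    split_ifs <;> rfl
  rw [hfil]
  exact Finset.sum_subtype _ (fun x => by simp) _

end Fermat.Agent.S56.EC.Ind
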