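/-
S56 / block EC-IND (helper87 + helper236) : definitions.
`IsCp p N` (finite, killed by `p`), `MultFun D p` (positive multiplicative functions on such
`D`-modules), `IsLat L` (finitely generated torsion free), `PFun R X = Map(X, R)` with the
translation action (the permutation lattice for `R = ℤ`).
-/
import Fermat.Agent.S55.Coh.IndApi
import Fermat.Agent.S55.Formal.HomDual

set_option autoImplicit false

namespace Fermat.Agent.S56.EC.Ind

open Fermat.Agent.S55

/-- `N` is finite and killed by `p`. -/
structure IsCp (p : ℕ) (N : Type) [AddCommGroup N] : Prop where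
  finite : Finite N
  tors : ∀ x : N, p • x = 0

/-- A function on `D`-modules which is positive and multiplicative in short exact sequences on the
class of finite modules killed by `p`. -/
structure MultFun (D : Type) [Group D] (p : ℕ) where
  /-- the function -/
  e : ∀ (N : Type) [AddCommGroup N] [DistribMulAction D N], ℚ
  pos : ∀ (N : Type) [AddCommGroup N] [DistribMulAction D N], IsCp p N → 0 < e N
  mul : ∀ (A B C : Type) [AddCommGroup A] [DistribMulAction D A] [AddCommGroup B]
    [DistribMulAction D B] [AddCommGroup C] [DistribMulAction D C] (φ : A →+[D] B)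
    (ψ : B →+[D] C), IsCp p B → ShortExact φ ψ → e B = e A * e C

/-- A lattice: finitely generated and torsion free. -/
structure IsLat (L : Type) [AddCommGroup L] : Prop where
  fg : Module.Finite ℤ L
  tf : ∀ (n : ℕ) (x : L), n ≠ 0 → n • x = 0 → x = 0

/-- `Map(X, R)` with the action `(g • f) x = f (g⁻¹ • x)` (no action on `R`). -/
def PFun (R X : Type) : Type := X → R

namespace PFun

variable {D R X : Type}

instance [AddCommGroup R] : AddCommGroup (PFun R X) := inferInstanceAs (AddCommGroup (X → R))

instance [Ring R] : Module R (PFun R X) := inferInstanceAs (Module R (X → R))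

instance : FunLike (PFun R X) X R := ⟨fun f => f, fun _ _ h => h⟩

/-- Build an element of `PFun R X` from a function. -/
def of (f : X → R) : PFun R X := f

@[simp] theorem of_apply (f : X → R) (x : X) : of f x = f x := rfl

@[ext] theorem ext {f f' : PFun R X} (h : ∀ x, f x = f' x) : f = f' := funext h

@[simp] theorem zero_apply [AddCommGroup R] (x : X) : (0 : PFun R X) x = 0 := rfl
@[simp] theorem add_apply [AddCommGroup R] (f f' : PFun R X) (x : X) :
    (f + f') x = f x + f' x := rfl
@[simp] theorem neg_apply [AddCommGroup R] (f : PFun R X) (x : X) : (-f) x = -f x := rfl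
@[simp] theorem sub_apply [AddCommGroup R] (f f' : PFun R X) (x : X) :
    (f - f') x = f x - f' x := rfl
@[simp] theorem nsmul_apply [AddCommGroup R] (n : ℕ) (f : PFun R X) (x : X) :
    (n • f) x = n • f x := rfl
@[simp] theorem zsmul_apply [AddCommGroup R] (n : ℤ) (f : PFun R X) (x : X) :
    (n • f) x = n • f x := rfl
@[simp] theorem smul_apply' [Ring R] (r : R) (f : PFun R X) (x : X) : (r • f) x = r * f x := rfl

instance [Group D] [MulAction D X] [AddCommGroup R] : DistribMulAction D (PFun R X) where
  smul g f := of fun x => f (g⁻¹ • x)
  one_smul f := by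
    ext x
    change f ((1 : D)⁻¹ • x) = f x
    simp
  mul_smul g h f := by
    ext x
    change f ((g * h)⁻¹ • x) = f (h⁻¹ • g⁻¹ • x)
    simp [mul_smul]
  smul_zero _ := rfl
  smul_add _ _ _ := rfl

@[simp] theorem smul_apply [Group D] [MulAction D X] [AddCommGroup R] (g : D) (f : PFun R X)
    (x : X) : (g • f) x = f (g⁻¹ • x) := rfl

/-- The indicator function of a point. -/
def single [DecidableEq X] [Ring R] (x : X) : PFun R X := of (Pi.single x 1)

theorem single_apply [DecidableEq X] [Ring R] (x y : X) :
    (single x : PFun R X) y = if y = x then 1 else 0 := by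
  change (Pi.single x (1 : R) : X → R) y = _
  rw [Pi.single_apply]

theorem smul_single [DecidableEq X] [Ring R] [Group D] [MulAction D X] (g : D) (x : X) :
    g • (single x : PFun R X) = single (g • x) := by
  ext y
  rw [smul_apply, single_apply, single_apply]
  simp only [inv_smul_eq_iff]

end PFun

/-- The number of fixed points of `g` on `X`. -/
noncomputable def mark {D : Type} [Group D] (X : Type) [MulAction D X] (g : D) : ℕ :=
  Nat.card (MulAction.fixedBy X g)

end Fermat.Agent.S56.EC.Ind
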