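/-
S56 / block EC-IND, node (A2) : `#B * #Fix_{D/B}(g) = #{x | x⁻¹ g x ∈ B}`; the one point set `D/D`.
-/
import Fermat.Agent.S56.EC.Ind.Defs

set_option autoImplicit false

namespace Fermat.Agent.S56.EC.Ind

theorem MarkQuot_mem_fixedBy {D : Type} [Group D] (B : Subgroup D) (g x : D) :
    (x : D ⧸ B) ∈ MulAction.fixedBy (D ⧸ B) g ↔ x⁻¹ * g * x ∈ B := by
  rw [MulAction.mem_fixedBy, MulAction.Quotient.smul_mk, eq_comm, QuotientGroup.eq, smul_eq_mul,
    mul_assoc]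

/-- (A2) -/
theorem card_mul_mark_quotient {D : Type} [Group D] [Finite D] (B : Subgroup D) (g : D) :
    Nat.card B * mark (D ⧸ B) g = Nat.card {x : D // x⁻¹ * g * x ∈ B} := by
  let e := Subgroup.groupEquivQuotientProdSubgroup (s := B)
  have he : ∀ x : D, (e x).1 = (x : D ⧸ B) := fun x => rfl
  have h1 : {x : D // x⁻¹ * g * x ∈ B} ≃
      {y : (D ⧸ B) × B // y.1 ∈ MulAction.fixedBy (D ⧸ B) g} :=
    e.subtypeEquiv fun x => by rw [he, MarkQuot_mem_fixedBy]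
  rw [Nat.card_congr h1, Nat.card_congr (Equiv.prodSubtypeFstEquivSubtypeProd), Nat.card_prod,
    mul_comm]
  rfl

theorem mark_quotient_top {D : Type} [Group D] (g : D) : mark (D ⧸ (⊤ : Subgroup D)) g = 1 := by
  have : Subsingleton (D ⧸ (⊤ : Subgroup D)) := QuotientGroup.subsingleton_quotient_top
  have h : Nonempty (MulAction.fixedBy (D ⧸ (⊤ : Subgroup D)) g) :=
    ⟨⟨((1 : D) : D ⧸ (⊤ : Subgroup D)), Subsingleton.elim _ _⟩⟩
  rw [mark]
  exact Nat.card_eq_one_iff_unique.2 ⟨inferInstance, h⟩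

end Fermat.Agent.S56.EC.Ind
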