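/-
S56 / block EC-IND, node (A3) : Artin's relation `#D = ∑_{B cyclic} a_B #Fix_{D/B}(g)`.
-/
import Fermat.Agent.S56.EC.Ind.CycCoeff
import Fermat.Agent.S56.EC.Ind.MarkQuot

set_option autoImplicit false

namespace Fermat.Agent.S56.EC.Ind

/-- (A3) -/
theorem artin_relation (D : Type) [Group D] [Finite D] [Fintype (Subgroup D)] :
    ∃ a : Subgroup D → ℤ, (∀ B : Subgroup D, ¬ IsCyclic B → a B = 0) ∧
      ∀ g : D, ∑ B : Subgroup D, a B * (mark (D ⧸ B) g : ℤ) = (Nat.card D : ℤ) := by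
  classical
  obtain ⟨c, hc0, hc⟩ := exists_cyclic_coeff D
  have : Fintype D := Fintype.ofFinite D
  refine ⟨fun B => c B * (Nat.card B : ℤ), fun B hB => by simp only [hc0 B hB, zero_mul],
    fun g => ?_⟩
  have h1 : ∀ B : Subgroup D, c B * (Nat.card B : ℤ) * (mark (D ⧸ B) g : ℤ) =
      ∑ x : D, {B : Subgroup D | x⁻¹ * g * x ∈ B}.indicator c B := by
    intro B
    have h2 : ((Nat.card B * mark (D ⧸ B) g : ℕ) : ℤ) =
        (Nat.card {x : D // x⁻¹ * g * x ∈ B} : ℤ) := by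
      rw [card_mul_mark_quotient]
    rw [mul_assoc, ← Nat.cast_mul, h2, Nat.card_eq_fintype_card, Fintype.card_subtype,
      Finset.card_filter, Nat.cast_sum, Finset.mul_sum]
    refine Finset.sum_congr rfl fun x _ => ?_
    by_cases hx : x⁻¹ * g * x ∈ B
    · rw [if_pos hx, Set.indicator_of_mem (show B ∈ {B : Subgroup D | x⁻¹ * g * x ∈ B} from hx)]
      simp
    · rw [if_neg hx,
        Set.indicator_of_notMem (show B ∉ {B : Subgroup D | x⁻¹ * g * x ∈ B} from hx)]
      simp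
  rw [Finset.sum_congr rfl fun B _ => h1 B, Finset.sum_comm,
    Finset.sum_congr rfl fun x _ => hc (x⁻¹ * g * x)]
  simp [Nat.card_eq_fintype_card]

end Fermat.Agent.S56.EC.Ind
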