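/-
S56 / block EC-IND : formal properties of `IsCp` and of multiplicative functions.
-/
import Fermat.Agent.S56.EC.Ind.Defs

set_option autoImplicit false

namespace Fermat.Agent.S56.EC.Ind

open Fermat.Agent.S55

section IsCp

variable {p : ℕ} {A B : Type} [AddCommGroup A] [AddCommGroup B]

theorem IsCp.of_injective (φ : A →+ B) (hφ : Function.Injective φ) (hB : IsCp p B) : IsCp p A where
  finite := by
    have := hB.finite
    exact Finite.of_injective φ hφ
  tors x := hφ (by rw [map_nsmul, hB.tors, map_zero])

theorem IsCp.of_surjective (φ : A →+ B) (hφ : Function.Surjective φ) (hA : IsCp p A) :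
    IsCp p B where
  finite := by
    have := hA.finite
    exact Finite.of_surjective φ hφ
  tors y := by
    obtain ⟨x, rfl⟩ := hφ y
    rw [← map_nsmul, hA.tors, map_zero]

theorem IsCp.indMod (X : Type) [Finite X] (hA : IsCp p A) : IsCp p (IndMod X A) where
  finite := by
    have := hA.finite
    exact Finite.of_injective (fun f : IndMod X A => (f : X → A)) DFunLike.coe_injective
  tors f := by
    ext x
    exact hA.tors (f x)

theorem IsCp.of_subsingleton [Subsingleton A] : IsCp p A where
  finite := inferInstance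
  tors _ := Subsingleton.elim _ _

end IsCp

variable {D : Type} [Group D] {p : ℕ} (E : MultFun D p)
variable {A B C : Type} [AddCommGroup A] [DistribMulAction D A] [AddCommGroup B]
  [DistribMulAction D B] [AddCommGroup C] [DistribMulAction D C]

theorem IsCp.gsubMod (hA : IsCp p A) (S : GSub D A) : IsCp p S.Mod :=
  IsCp.of_injective S.incl S.incl_injective hA

theorem IsCp.gsubQuot (hA : IsCp p A) (S : GSub D A) : IsCp p S.Quot :=
  IsCp.of_surjective S.proj S.proj_surjective hA

namespace MultFun

/-- The value on a zero module is `1`. -/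
theorem e_subsingleton (N : Type) [AddCommGroup N] [DistribMulAction D N] [Subsingleton N] :
    E.e N = 1 := by
  have h : ShortExact (DistribMulActionHom.id D : N →+[D] N) (DistribMulActionHom.id D) :=
    ⟨fun _ _ h => h, fun b => ⟨fun _ => ⟨b, rfl⟩, fun _ => Subsingleton.elim _ _⟩,
      fun b => ⟨b, rfl⟩⟩
  have h1 := E.mul N N N _ _ IsCp.of_subsingleton h
  have h2 := E.pos N IsCp.of_subsingleton
  have h3 : E.e N * (E.e N - 1) = 0 := by linear_combination -h1
  rcases mul_eq_zero.1 h3 with h4 | h4
  · exact absurd h4 h2.ne'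
  · linarith

/-- Invariance under isomorphisms. -/
theorem e_congr (φ : A →+[D] B) (hφ : Function.Bijective φ) (hB : IsCp p B) :
    E.e A = E.e B := by
  have h : ShortExact φ (0 : B →+[D] PUnit) :=
    ⟨hφ.1, fun b => ⟨fun _ => hφ.2 b, fun _ => rfl⟩, fun _ => ⟨0, rfl⟩⟩
  rw [E.mul A B PUnit φ 0 hB h, E.e_subsingleton PUnit, mul_one]

/-- The short exact sequence `0 → ker r → A → im r → 0`. -/
theorem shortExact_ker_range (r : A →+[D] B) :
    ShortExact (GSub.ker r).inclG (GSub.rangeRestrict r) where
  inj := GSub.inclG_injective _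
  exact a := by
    constructor
    · intro ha
      have h1 : r a = 0 := by
        have := congrArg (GSub.range r).incl ha
        rwa [GSub.incl_rangeRestrict, map_zero] at this
      exact ⟨(GSub.ker r).mkMod a ((GSub.mem_ker r a).2 h1), rfl⟩
    · rintro ⟨x, rfl⟩
      apply (GSub.range r).incl_injective
      rw [GSub.incl_rangeRestrict, map_zero]
      exact (GSub.mem_ker r _).1 ((GSub.ker r).incl_mem x)
  surj := GSub.rangeRestrict_surjective r

/-- `e A = e (ker r) * e (im r)`. -/
theorem e_ker_range (r : A →+[D] B) (hA : IsCp p A) :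
    E.e A = E.e (GSub.ker r).Mod * E.e (GSub.range r).Mod :=
  E.mul _ _ _ _ _ hA (shortExact_ker_range r)

/-- Two stable subgroups with the same elements have the same value. -/
theorem e_gsub_congr {S T : GSub D A} (h : ∀ a, a ∈ S.toAddSubgroup ↔ a ∈ T.toAddSubgroup) :
    E.e S.Mod = E.e T.Mod := by
  have : S = T := by
    cases S; cases T
    congr
    exact AddSubgroup.ext h
  rw [this]

/-- (K3) the two-step lemma: `A ⇄ B` with `ker r = im s` and `ker s = im r`. -/
theorem two_step (r : A →+[D] B) (s : B →+[D] A) (hA : IsCp p A) (hB : IsCp p B)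
    (h1 : ∀ a, r a = 0 ↔ ∃ b, s b = a) (h2 : ∀ b, s b = 0 ↔ ∃ a, r a = b) :
    E.e A = E.e B := by
  rw [E.e_ker_range r hA, E.e_ker_range s hB, mul_comm,
    E.e_gsub_congr (S := GSub.ker r) (T := GSub.range s) h1,
    E.e_gsub_congr (S := GSub.ker s) (T := GSub.range r) h2]

/-- A positive rational number with a trivial power is `1`. -/
theorem eq_one_of_pow_eq_one {x : ℚ} (hx : 0 < x) {n : ℕ} (hn : n ≠ 0) (h : x ^ n = 1) : x = 1 :=
  (pow_eq_one_iff_of_nonneg hx.le hn).1 h

end MultFun

end Fermat.Agent.S56.EC.Ind
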