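/-
S56 / block EC-IND, node (P1) : `T` nilpotent of exponent `q` with `ker T ⊆ im T^(q-1)` gives
`e M = e (ker T) ^ q`.
-/
import Fermat.Agent.S56.EC.Ind.Basic

set_option autoImplicit false

namespace Fermat.Agent.S56.EC.Ind

open Fermat.Agent.S55

variable {D : Type} [Group D] {p : ℕ} (E : MultFun D p)
variable {M : Type} [AddCommGroup M] [DistribMulAction D M]

theorem iterate_smul_hom (T : M →+[D] M) (i : ℕ) (g : D) (y : M) :
    T^[i] (g • y) = g • T^[i] y := by
  induction i generalizing y with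
  | zero => rfl
  | succ i ih => rw [Function.iterate_succ_apply, Function.iterate_succ_apply, map_smul, ih]

/-- The image of `T^i`. -/
def iterRange (T : M →+[D] M) (i : ℕ) : GSub D M where
  carrier := {x | ∃ y, T^[i] y = x}
  zero_mem' := ⟨0, iterate_map_zero T i⟩
  add_mem' := by
    rintro _ _ ⟨y, rfl⟩ ⟨y', rfl⟩
    exact ⟨y + y', iterate_map_add T i y y'⟩
  neg_mem' := by
    rintro _ ⟨y, rfl⟩
    exact ⟨-y, iterate_map_neg T i y⟩
  smul_mem' := by
    rintro g _ ⟨y, rfl⟩
    exact ⟨g • y, iterate_smul_hom T i g y⟩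

theorem mem_iterRange (T : M →+[D] M) (i : ℕ) (x : M) :
    x ∈ (iterRange T i).toAddSubgroup ↔ ∃ y, T^[i] y = x := Iff.rfl

/-- One step: `0 → ker T → im T^i → im T^(i+1) → 0` when `ker T ⊆ im T^i`. -/
theorem MultFun.e_iterRange_succ (hM : IsCp p M) (T : M →+[D] M) (i : ℕ)
    (hker : ∀ x, T x = 0 → ∃ y, T^[i] y = x) :
    E.e (iterRange T i).Mod = E.e (GSub.ker T).Mod * E.e (iterRange T (i + 1)).Mod := by
  have h1 : ∀ a : (GSub.ker T).Mod, (GSub.ker T).inclG a ∈ (iterRange T i).toAddSubgroup := by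
    intro a
    exact hker _ ((GSub.mem_ker T _).1 ((GSub.ker T).incl_mem a))
  have h2 : ∀ a : (iterRange T i).Mod,
      (T.comp (iterRange T i).inclG) a ∈ (iterRange T (i + 1)).toAddSubgroup := by
    intro a
    obtain ⟨y, hy⟩ := (iterRange T i).incl_mem a
    refine ⟨y, ?_⟩
    rw [Function.iterate_succ_apply', hy]
    rfl
  refine E.mul _ _ _ ((iterRange T i).codRestrict (GSub.ker T).inclG h1)
    ((iterRange T (i + 1)).codRestrict (T.comp (iterRange T i).inclG) h2)
    (hM.gsubMod _) ⟨?_, ?_, ?_⟩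
  · intro a b hab
    apply (GSub.ker T).inclG_injective
    have := congrArg (iterRange T i).incl hab
    rwa [GSub.incl_codRestrict, GSub.incl_codRestrict] at this
  · intro b
    constructor
    · intro hb
      have h3 := congrArg (iterRange T (i + 1)).incl hb
      rw [GSub.incl_codRestrict, map_zero] at h3
      have h4 : T ((iterRange T i).incl b) = 0 := h3
      refine ⟨(GSub.ker T).mkMod _ ((GSub.mem_ker T _).2 h4), ?_⟩
      apply (iterRange T i).incl_injective
      rw [GSub.incl_codRestrict]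
      rfl
    · rintro ⟨a, rfl⟩
      apply (iterRange T (i + 1)).incl_injective
      rw [GSub.incl_codRestrict, map_zero]
      show T ((iterRange T i).incl ((iterRange T i).codRestrict (GSub.ker T).inclG h1 a)) = 0
      rw [GSub.incl_codRestrict]
      exact (GSub.mem_ker T _).1 ((GSub.ker T).incl_mem a)
  · intro c
    obtain ⟨y, hy⟩ := (iterRange T (i + 1)).incl_mem c
    refine ⟨(iterRange T i).mkMod (T^[i] y) ⟨y, rfl⟩, ?_⟩
    apply (iterRange T (i + 1)).incl_injective
    rw [GSub.incl_codRestrict, ← hy, Function.iterate_succ_apply']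
    rfl

/-- (P1) -/
theorem MultFun.e_eq_pow_of_nilpotent (hM : IsCp p M) (T : M →+[D] M) (q : ℕ) (hq : 0 < q)
    (hT : ∀ x, T^[q] x = 0) (hker : ∀ x, T x = 0 → ∃ y, T^[q - 1] y = x) :
    E.e M = E.e (GSub.ker T).Mod ^ q := by
  have key : ∀ i, i ≤ q → E.e M = E.e (GSub.ker T).Mod ^ i * E.e (iterRange T i).Mod := by
    intro i
    induction i with
    | zero =>
      intro _
      rw [pow_zero, one_mul]
      refine (E.e_congr (iterRange T 0).inclG ⟨GSub.inclG_injective _, fun x => ?_⟩ hM).symm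
      exact ⟨(iterRange T 0).mkMod x ⟨x, rfl⟩, rfl⟩
    | succ i ih =>
      intro hi
      have hk : ∀ x, T x = 0 → ∃ y, T^[i] y = x := by
        intro x hx
        obtain ⟨y, hy⟩ := hker x hx
        refine ⟨T^[q - 1 - i] y, ?_⟩
        rw [← Function.iterate_add_apply, ← hy]
        congr 2
        omega
      rw [ih (by omega), E.e_iterRange_succ hM T i hk, pow_succ, mul_assoc]
  have hsub : Subsingleton (iterRange T q).Mod := by
    refine ⟨fun a b => (iterRange T q).incl_injective ?_⟩
    obtain ⟨y, hy⟩ := (iterRange T q).incl_mem a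
    obtain ⟨y', hy'⟩ := (iterRange T q).incl_mem b
    rw [← hy, ← hy', hT, hT]
  rw [key q le_rfl, E.e_subsingleton (iterRange T q).Mod, mul_one]

end Fermat.Agent.S56.EC.Ind
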