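/-
S56 / block EC-IND, node (P2) : in characteristic `p`, `(S - 1)^(p-1) = 1 + S + ⋯ + S^(p-1)` and
`(S - 1)^p = S^p - 1`.  Mathlib only.
-/
import Mathlib

set_option autoImplicit false

namespace Fermat.Agent.S56.EC.Ind

variable {p : ℕ} [Fact p.Prime] {M : Type} [AddCommGroup M]

theorem NormId.poly_self (p : ℕ) [Fact p.Prime] :
    ((Polynomial.X : Polynomial (ZMod p)) - 1) ^ p = Polynomial.X ^ p - 1 := by
  rw [sub_pow_char, one_pow]

theorem NormId.poly_pred (p : ℕ) [Fact p.Prime] :
    ((Polynomial.X : Polynomial (ZMod p)) - 1) ^ (p - 1) =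
      ∑ k ∈ Finset.range p, (Polynomial.X : Polynomial (ZMod p)) ^ k := by
  have h2 : (∑ k ∈ Finset.range p, (Polynomial.X : Polynomial (ZMod p)) ^ k) *
      (Polynomial.X - 1) = Polynomial.X ^ p - 1 := geom_sum_mul _ p
  have h3 : (Polynomial.X : Polynomial (ZMod p)) - 1 ≠ 0 := by
    have := Polynomial.X_sub_C_ne_zero (1 : ZMod p)
    rwa [Polynomial.C_1] at this
  apply mul_right_cancel₀ h3
  rw [h2, ← NormId.poly_self p, ← pow_succ, Nat.sub_add_cancel (Fact.out : p.Prime).one_le]

/-- iterates of `T = S - 1` as powers in the endomorphism algebra. -/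
theorem NormId.iterate_eq [Module (ZMod p) M] (S' : Module.End (ZMod p) M) (T : M →+ M)
    (hT : ∀ x, T x = S' x - x) (n : ℕ) (x : M) : T^[n] x = ((S' - 1) ^ n) x := by
  have h : (⇑T : M → M) = ⇑(S' - 1) := by
    funext y
    rw [hT]
    rfl
  rw [h, Module.End.pow_apply]

theorem NormId.pred_lin [Module (ZMod p) M] (S' : Module.End (ZMod p) M) (T : M →+ M)
    (hT : ∀ x, T x = S' x - x) (x : M) : T^[p - 1] x = ∑ k ∈ Finset.range p, S'^[k] x := by
  have key : (S' - 1) ^ (p - 1) = ∑ k ∈ Finset.range p, S' ^ k := by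
    have := congrArg (Polynomial.aeval S') (NormId.poly_pred p)
    simpa only [map_pow, map_sub, map_one, map_sum, Polynomial.aeval_X] using this
  rw [NormId.iterate_eq S' T hT, key, LinearMap.sum_apply]
  exact Finset.sum_congr rfl (fun k _ => Module.End.pow_apply S' k x)

theorem NormId.self_lin [Module (ZMod p) M] (S' : Module.End (ZMod p) M) (T : M →+ M)
    (hT : ∀ x, T x = S' x - x) (x : M) : T^[p] x = S'^[p] x - x := by
  have key : (S' - 1) ^ p = S' ^ p - 1 := by
    have := congrArg (Polynomial.aeval S') (NormId.poly_self p)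
    simpa only [map_pow, map_sub, map_one, Polynomial.aeval_X] using this
  rw [NormId.iterate_eq S' T hT, key, LinearMap.sub_apply, Module.End.pow_apply]
  rfl

/-- (P2a) -/
theorem iterate_sub_one_pred (hM : ∀ x : M, p • x = 0) (S T : M →+ M)
    (hT : ∀ x, T x = S x - x) (x : M) : T^[p - 1] x = ∑ k ∈ Finset.range p, S^[k] x := by
  let _ : Module (ZMod p) M := AddCommGroup.zmodModule hM
  exact NormId.pred_lin (S.toZModLinearMap p) T hT x

/-- (P2b) -/
theorem iterate_sub_one_self (hM : ∀ x : M, p • x = 0) (S T : M →+ M)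
    (hT : ∀ x, T x = S x - x) (x : M) : T^[p] x = S^[p] x - x := by
  let _ : Module (ZMod p) M := AddCommGroup.zmodModule hM
  exact NormId.self_lin (S.toZModLinearMap p) T hT x

end Fermat.Agent.S56.EC.Ind
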