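/-
S56 / block EC-IND, node (P3) : a cyclic cover `X' → X` of degree `p` gives
`e (Map(X', N)) = e (Map(X, N)) ^ p`.
-/
import Fermat.Agent.S56.EC.Ind.Nilp
import Fermat.Agent.S56.EC.Ind.NormId
import Fermat.Agent.S55.Coh.Cyclic

set_option autoImplicit false

namespace Fermat.Agent.S56.EC.Ind

open Fermat.Agent.S55

variable {D : Type} [Group D] {p : ℕ} (E : MultFun D p)

omit E in
/-- the iterates of `σ^*` -/
theorem cover_iterate_pull {X' : Type} [MulAction D X'] (σ : X' →[D] X') (N : Type)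
    [AddCommGroup N] [DistribMulAction D N] (k : ℕ) (f : IndMod X' N) (x : X') :
    ((IndMod.pull N σ)^[k] f) x = f (σ^[k] x) := by
  induction k generalizing f with
  | zero => rfl
  | succ k ih =>
    rw [Function.iterate_succ_apply, ih, Function.iterate_succ_apply']
    rfl

/-- (P3) -/
theorem MultFun.e_ind_cyclicCover [Fact p.Prime] {X' X : Type} [MulAction D X'] [MulAction D X]
    [Finite X'] {u : X' →[D] X} {σ : X' →[D] X'} (h : CyclicCover u σ p)
    {N : Type} [AddCommGroup N] [DistribMulAction D N] (hN : IsCp p N) :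
    E.e (IndMod X' N) = E.e (IndMod X N) ^ p := by
  have hM : IsCp p (IndMod X' N) := hN.indMod X'
  have hTS : ∀ f, ((IndMod.sigmaSub N σ : IndMod X' N →+[D] IndMod X' N) :
      IndMod X' N →+ IndMod X' N) f =
      ((IndMod.pull N σ : IndMod X' N →+[D] IndMod X' N) : IndMod X' N →+ IndMod X' N) f - f :=
    fun f => rfl
  have hT : ∀ f, (IndMod.sigmaSub N σ)^[p] f = 0 := by
    intro f
    have h1 := iterate_sub_one_self hM.tors _ _ hTS f
    refine h1.trans ?_
    ext x
    have h2 := cover_iterate_pull σ N p f x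
    rw [h.pow] at h2
    exact sub_eq_zero.2 h2
  have hker : ∀ f, IndMod.sigmaSub N σ f = 0 → ∃ y, (IndMod.sigmaSub N σ)^[p - 1] y = f := by
    intro f hf
    obtain ⟨a, rfl⟩ := h.exists_pull_eq hf
    obtain ⟨f', rfl⟩ := h.push_surjective a
    refine ⟨f', ?_⟩
    have h1 := iterate_sub_one_pred hM.tors _ _ hTS f'
    refine h1.trans ?_
    ext x
    rw [h.pull_push_apply, IndMod.finset_sum_apply]
    exact Finset.sum_congr rfl fun k _ => cover_iterate_pull σ N k f' x
  rw [E.e_eq_pow_of_nilpotent hM (IndMod.sigmaSub N σ) p h.pos hT hker]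
  congr 1
  refine (E.e_congr ((GSub.ker (IndMod.sigmaSub N σ)).codRestrict (IndMod.pull N u)
    fun a => (GSub.mem_ker _ _).2 (h.sigmaSub_pull a)) ⟨?_, ?_⟩ (hM.gsubMod _)).symm
  · intro a b hab
    apply h.pull_injective (A := N)
    exact congrArg (GSub.ker (IndMod.sigmaSub N σ)).incl hab
  · intro w
    obtain ⟨a, ha⟩ := h.exists_pull_eq
      ((GSub.mem_ker _ _).1 ((GSub.ker (IndMod.sigmaSub N σ)).incl_mem w))
    exact ⟨a, (GSub.ker (IndMod.sigmaSub N σ)).incl_injective ha⟩

end Fermat.Agent.S56.EC.Ind
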