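/-
S56 / block EC-IND, node (P4a) : a cyclic group of order divisible by `p` has a (cyclic) subgroup of
index `p`.  Mathlib only.
-/
import Mathlib

set_option autoImplicit false

namespace Fermat.Agent.S56.EC.Ind

/-- (P4a) -/
theorem exists_relIndex_eq_prime {D : Type} [Group D] [Finite D] {p : ℕ} (hp : p.Prime)
    (B : Subgroup D) (hB : IsCyclic B) (hpB : p ∣ Nat.card B) :
    ∃ B' : Subgroup D, B' ≤ B ∧ IsCyclic B' ∧ B'.relIndex B = p ∧ Nat.card B' < Nat.card B ∧
      ∀ g ∈ B, ∀ v ∈ B', g⁻¹ * v * g ∈ B' := by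
  obtain ⟨⟨s, hsB⟩, hs⟩ := hB.exists_generator
  have hBs : B = Subgroup.zpowers s := by
    apply le_antisymm
    · intro x hx
      obtain ⟨k, hk⟩ := Subgroup.mem_zpowers_iff.1 (hs ⟨x, hx⟩)
      refine Subgroup.mem_zpowers_iff.2 ⟨k, ?_⟩
      have := congrArg Subtype.val hk
      simpa using this
    · exact (Subgroup.zpowers_le).2 hsB
  subst hBs
  have hcard : Nat.card (Subgroup.zpowers s) = orderOf s := Nat.card_zpowers s
  have hcard' : Nat.card (Subgroup.zpowers (s ^ p)) = orderOf s / p := by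
    rw [Nat.card_zpowers, orderOf_pow_of_dvd hp.ne_zero (hcard ▸ hpB)]
  have hpos : 0 < orderOf s := orderOf_pos s
  have hle : Subgroup.zpowers (s ^ p) ≤ Subgroup.zpowers s :=
    (Subgroup.zpowers_le).2 (Subgroup.pow_mem _ (Subgroup.mem_zpowers s) p)
  have hdvd : p ∣ orderOf s := hcard ▸ hpB
  have hdivpos : 0 < orderOf s / p := Nat.div_pos (Nat.le_of_dvd hpos hdvd) hp.pos
  refine ⟨Subgroup.zpowers (s ^ p), hle, inferInstance, ?_, ?_, ?_⟩
  · have h : (Subgroup.zpowers (s ^ p)).relIndex (Subgroup.zpowers s) *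
        Nat.card (Subgroup.zpowers (s ^ p)) = Nat.card (Subgroup.zpowers s) := by
      have h0 := Subgroup.relIndex_mul_relIndex ⊥ _ _ bot_le hle
      rw [Subgroup.relIndex_bot_left, Subgroup.relIndex_bot_left] at h0
      rw [mul_comm]
      exact h0
    rw [hcard, hcard'] at h
    have h2 : p * (orderOf s / p) = orderOf s := Nat.mul_div_cancel' hdvd
    exact Nat.eq_of_mul_eq_mul_right hdivpos (h.trans h2.symm)
  · rw [hcard, hcard']
    exact Nat.div_lt_self hpos hp.one_lt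
  · intro g hg v hv
    obtain ⟨k, rfl⟩ := Subgroup.mem_zpowers_iff.1 hg
    obtain ⟨m, rfl⟩ := Subgroup.mem_zpowers_iff.1 hv
    have hc : Commute (s ^ k) ((s ^ p) ^ m) :=
      (((Commute.refl s).zpow_left k).pow_right p).zpow_right m
    have : (s ^ k)⁻¹ * (s ^ p) ^ m * s ^ k = (s ^ p) ^ m := by
      rw [mul_assoc, ← hc.eq, inv_mul_cancel_left]
    rw [this]
    exact Subgroup.zpow_mem _ (Subgroup.mem_zpowers _) m

end Fermat.Agent.S56.EC.Ind
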