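/-
S56 / block EC-IND, node (P) : from cyclic subgroups of order prime to `p` to all cyclic subgroups.
-/
import Fermat.Agent.S56.EC.Ind.Cover
import Fermat.Agent.S56.EC.Ind.CycSub
import Fermat.Agent.S55.Coh.Coset

set_option autoImplicit false

namespace Fermat.Agent.S56.EC.Ind

open Fermat.Agent.S55

variable {D : Type} [Group D] {p : ℕ} (E : MultFun D p)

/-- (P) -/
theorem MultFun.e_ind_cyclic_eq_one [Finite D] [Fact p.Prime]
    {N : Type} [AddCommGroup N] [DistribMulAction D N] (hN : IsCp p N)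
    (hbase : ∀ C : Subgroup D, IsCyclic C → ¬ p ∣ Nat.card C → E.e (IndMod (D ⧸ C) N) = 1)
    (B : Subgroup D) (hB : IsCyclic B) : E.e (IndMod (D ⧸ B) N) = 1 := by
  induction hn : Nat.card B using Nat.strong_induction_on generalizing B with
  | _ n ih =>
    by_cases hpB : p ∣ Nat.card B
    · obtain ⟨B', hle, hcyc, hidx, hlt, hnorm⟩ := exists_relIndex_eq_prime Fact.out B hB hpB
      obtain ⟨s, -, hs, hcov⟩ := S55.exists_cyclicCover_coset_prime Fact.out hle hnorm hidx
      have h1 : E.e (IndMod (D ⧸ B') N) = E.e (IndMod (D ⧸ B) N) ^ p :=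
        E.e_ind_cyclicCover hcov hN
      have h2 : E.e (IndMod (D ⧸ B') N) = 1 := ih (Nat.card B') (hn ▸ hlt) B' hcyc rfl
      rw [h2] at h1
      exact MultFun.eq_one_of_pow_eq_one (E.pos _ (hN.indMod _)) (Fact.out : p.Prime).ne_zero
        h1.symm
    · exact hbase B hB hpB

end Fermat.Agent.S56.EC.Ind
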