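/-
S56 / block EC-IND : `Hom(ℤ[X], N) = Map(X, N)`.
-/
import Fermat.Agent.S56.EC.Ind.Defs

set_option autoImplicit false

namespace Fermat.Agent.S56.EC.Ind

open Fermat.Agent.S55

variable {D : Type} [Group D]

open Classical in
/-- `f ↦ (x ↦ f (δ_x))`. -/
noncomputable def evalSingle (X N : Type) [MulAction D X] [AddCommGroup N] [DistribMulAction D N] :
    HomMod (PFun ℤ X) N →+[D] IndMod X N where
  toFun f := IndMod.of fun x => f (PFun.single x)
  map_smul' g f := by
    ext x
    change g • f (g⁻¹ • PFun.single x) = g • f (PFun.single (g⁻¹ • x))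
    rw [PFun.smul_single]
  map_zero' := rfl
  map_add' _ _ := rfl

open Classical in
private theorem homPFun_eq_sum (X : Type) [Fintype X] (u : PFun ℤ X) :
    u = ∑ x : X, u x • (PFun.single x : PFun ℤ X) := by
  have key : ∀ (s : Finset X) (F : X → PFun ℤ X) (y : X), (∑ x ∈ s, F x) y = ∑ x ∈ s, F x y := by
    intro s F y
    induction s using Finset.induction_on with
    | empty => simp
    | insert a s ha ih => rw [Finset.sum_insert ha, Finset.sum_insert ha, PFun.add_apply, ih]
  ext y
  rw [key, Finset.sum_eq_single y]
  · rw [PFun.zsmul_apply, PFun.single_apply, if_pos rfl, smul_eq_mul, mul_one]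
  · intro b _ hb
    rw [PFun.zsmul_apply, PFun.single_apply, if_neg (Ne.symm hb), smul_zero]
  · intro h
    exact absurd (Finset.mem_univ y) h

theorem evalSingle_bijective (X N : Type) [MulAction D X] [Finite X] [AddCommGroup N]
    [DistribMulAction D N] : Function.Bijective (evalSingle (D := D) X N) := by
  classical
  have := Fintype.ofFinite X
  constructor
  · intro f f' hff
    have h1 : ∀ x : X, f (PFun.single x) = f' (PFun.single x) := by
      intro x
      have := congrArg (fun F : IndMod X N => F x) hff
      exact this
    ext u
    rw [homPFun_eq_sum X u, map_sum, map_sum]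
    refine Finset.sum_congr rfl fun x _ => ?_
    rw [map_zsmul, map_zsmul, h1]
  · intro F
    let f : PFun ℤ X →+ N :=
      { toFun := fun u => ∑ x : X, u x • F x
        map_zero' := by simp
        map_add' := by
          intro u v
          simp only [PFun.add_apply, add_smul, Finset.sum_add_distrib] }
    refine ⟨HomMod.of f, ?_⟩
    ext y
    change ∑ x : X, (PFun.single y : PFun ℤ X) x • F x = F y
    rw [Finset.sum_eq_single y]
    · rw [PFun.single_apply, if_pos rfl, one_smul]
    · intro b _ hb
      rw [PFun.single_apply, if_neg hb, zero_smul]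
    · intro h
      exact absurd (Finset.mem_univ y) h

end Fermat.Agent.S56.EC.Ind
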