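/-
S56 / block EC-IND, node (K1) : two finite dimensional representations of a finite group over a
field of characteristic zero with the same character are isomorphic.  Mathlib only.
(no algebraic closedness needed; helper236)
-/
import Mathlib

set_option autoImplicit false

namespace Fermat.Agent.S56.EC.Ind

open Representation Module

universe u v v' w

section

variable {k : Type u} {G : Type w} [Field k] [Group G]

/-- additivity of the character on complementary subrepresentations -/
theorem character_eq_add_of_isCompl {V : Type v} [AddCommGroup V] [Module k V]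
    [FiniteDimensional k V] (ρ : Representation k G V) (A B : Subrepresentation ρ)
    (h : IsCompl A.toSubmodule B.toSubmodule) (g : G) :
    ρ.character g = A.toRepresentation.character g + B.toRepresentation.character g := by
  classical
  let N : Bool → Submodule k V := fun b => cond b A.toSubmodule B.toSubmodule
  have hint : DirectSum.IsInternal N := by
    rw [DirectSum.isInternal_submodule_iff_isCompl N (i := true) (j := false) (by simp)
      (by ext b; cases b <;> simp)]
    exact h
  have hf : ∀ i, Set.MapsTo (ρ g) (N i) (N i) := by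
    intro i
    cases i
    · exact fun v hv => B.apply_mem_toSubmodule g hv
    · exact fun v hv => A.apply_mem_toSubmodule g hv
  have := LinearMap.trace_eq_sum_trace_restrict hint hf
  rw [Fintype.sum_bool] at this
  exact this

theorem isCompl_toSubmodule {V : Type v} [AddCommGroup V] [Module k V]
    {ρ : Representation k G V} {A B : Subrepresentation ρ} (h : IsCompl A B) :
    IsCompl A.toSubmodule B.toSubmodule := by
  constructor
  · rw [disjoint_iff]
    exact congrArg Subrepresentation.toSubmodule h.inf_eq_bot
  · rw [codisjoint_iff]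
    exact congrArg Subrepresentation.toSubmodule h.sup_eq_top

/-- the projection onto a subrepresentation along a complementary one is equivariant -/
theorem linearProj_equivariant {V : Type v} [AddCommGroup V] [Module k V]
    (ρ : Representation k G V) (A B : Subrepresentation ρ)
    (h : IsCompl A.toSubmodule B.toSubmodule) (g : G) (x : V) :
    Submodule.projectionOnto _ _ h (ρ g x) =
      A.toRepresentation g (Submodule.projectionOnto _ _ h x) := by
  obtain ⟨a, ha, b, hb, rfl⟩ : ∃ a ∈ A.toSubmodule, ∃ b ∈ B.toSubmodule, a + b = x := by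
    have : x ∈ A.toSubmodule ⊔ B.toSubmodule := by rw [h.sup_eq_top]; trivial
    exact Submodule.mem_sup.1 this
  have h1 : Submodule.projectionOnto _ _ h b = 0 :=
    (Submodule.projectionOnto_apply_eq_zero_iff h).2 hb
  have h2 : Submodule.projectionOnto _ _ h (ρ g b) = 0 :=
    (Submodule.projectionOnto_apply_eq_zero_iff h).2 (B.apply_mem_toSubmodule g hb)
  have h3 : Submodule.projectionOnto _ _ h a = ⟨a, ha⟩ :=
    Submodule.projectionOnto_apply_left h ⟨a, ha⟩
  have h4 : Submodule.projectionOnto _ _ h (ρ g a) = ⟨ρ g a, A.apply_mem_toSubmodule g ha⟩ :=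
    Submodule.projectionOnto_apply_left h ⟨ρ g a, A.apply_mem_toSubmodule g ha⟩
  rw [map_add, map_add, map_add, h1, h2, h3, h4, add_zero, add_zero]
  rfl

theorem nonempty_equiv_aux [CharZero k] [Fintype G] (n : ℕ) :
    ∀ (V : Type v) (W : Type v') [AddCommGroup V] [Module k V] [FiniteDimensional k V]
      [AddCommGroup W] [Module k W] [FiniteDimensional k W] (ρ : Representation k G V)
      (σ : Representation k G W), finrank k V = n → (∀ g, ρ.character g = σ.character g) →
      Nonempty (Representation.Equiv ρ σ) := by
  induction n using Nat.strong_induction_on with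
  | _ n ih =>
  intro V W _ _ _ _ _ _ ρ σ hn hχ
  have hdim : finrank k V = finrank k W := by
    have := hχ 1
    rw [char_one, char_one] at this
    exact_mod_cast this
  have hcard : (Nat.card G : k) ≠ 0 := by exact_mod_cast Nat.card_pos.ne'
  have : NeZero (Nat.card G : k) := ⟨hcard⟩
  have : Invertible (Nat.card G : k) := invertibleOfNonzero hcard
  -- it is enough to find an injective intertwining map
  suffices hF : ∃ F : IntertwiningMap ρ σ, Function.Injective F by
    obtain ⟨F, hF⟩ := hF
    have hsurj : Function.Surjective F.toLinearMap :=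
      (LinearMap.injective_iff_surjective_of_finrank_eq_finrank hdim).1 hF
    exact ⟨F.ofBijective ⟨hF, hsurj⟩⟩
  by_cases hV : n = 0
  · have : Subsingleton V := by
      rw [← Module.finrank_zero_iff (R := k), hn, hV]
    exact ⟨0, fun a b _ => Subsingleton.elim a b⟩
  have hVnt : Nontrivial V := by
    rw [← Module.finrank_pos_iff (R := k), hn]
    omega
  have h1 : (finrank k (IntertwiningMap ρ σ) : k) = finrank k (IntertwiningMap ρ ρ) := by
    rw [← card_inv_mul_sum_char_mul_char_eq_finrank, ← card_inv_mul_sum_char_mul_char_eq_finrank]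
    simp only [hχ]
  have h2 : 0 < finrank k (IntertwiningMap ρ ρ) := by
    rw [Module.finrank_pos_iff_exists_ne_zero (R := k)]
    refine ⟨IntertwiningMap.id ρ, fun h0 => ?_⟩
    obtain ⟨x, hx⟩ := exists_ne (0 : V)
    apply hx
    have := DFunLike.congr_fun h0 x
    simpa using this
  have h3 : 0 < finrank k (IntertwiningMap ρ σ) := by
    have : finrank k (IntertwiningMap ρ σ) = finrank k (IntertwiningMap ρ ρ) := by
      exact_mod_cast h1
    omega
  obtain ⟨f, hf⟩ := (Module.finrank_pos_iff_exists_ne_zero (R := k)).1 h3
  obtain ⟨V₁, hV₁⟩ := exists_isCompl f.ker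
  obtain ⟨W₁, hW₁⟩ := exists_isCompl f.range
  have hcV := isCompl_toSubmodule hV₁
  have hcW := isCompl_toSubmodule hW₁
  -- `V₁ ≃ range f`
  let e₂ : IntertwiningMap V₁.toRepresentation f.range.toRepresentation :=
    { toLinearMap := (f.toLinearMap.domRestrict V₁.toSubmodule).codRestrict f.range.toSubmodule
        (fun x => (IntertwiningMap.mem_range ρ σ f _).2 ⟨x.1, rfl⟩)
      isIntertwining' := by
        intro g
        ext x
        exact IntertwiningMap.isIntertwining ρ σ f g x.1 }
  have he₂ : Function.Bijective e₂ := by
    constructor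
    · intro x y hxy
      have h5 : f x.1 = f y.1 := congrArg Subtype.val hxy
      have h6 : x.1 - y.1 ∈ f.ker.toSubmodule ⊓ V₁.toSubmodule := by
        refine ⟨(IntertwiningMap.mem_ker ρ σ f _).2 (by rw [map_sub, h5, sub_self]), V₁.toSubmodule.sub_mem x.2 y.2⟩
      rw [hcV.inf_eq_bot, Submodule.mem_bot, sub_eq_zero] at h6
      exact Subtype.ext h6
    · rintro ⟨y, hy⟩
      obtain ⟨x, rfl⟩ := (IntertwiningMap.mem_range ρ σ f _).1 hy
      obtain ⟨a, ha, b, hb, rfl⟩ : ∃ a ∈ f.ker.toSubmodule, ∃ b ∈ V₁.toSubmodule, a + b = x := by
        have : x ∈ f.ker.toSubmodule ⊔ V₁.toSubmodule := by rw [hcV.sup_eq_top]; trivial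
        exact Submodule.mem_sup.1 this
      refine ⟨⟨b, hb⟩, Subtype.ext ?_⟩
      change f b = f (a + b)
      rw [map_add, (IntertwiningMap.mem_ker ρ σ f _).1 ha, zero_add]
  have hχ₂ : ∀ g, V₁.toRepresentation.character g = f.range.toRepresentation.character g :=
    fun g => congrFun (char_iso (e₂.ofBijective he₂)) g
  have hχ₁ : ∀ g, f.ker.toRepresentation.character g = W₁.toRepresentation.character g := by
    intro g
    have a1 := character_eq_add_of_isCompl ρ _ _ hcV g
    have a2 := character_eq_add_of_isCompl σ _ _ hcW g
    rw [hχ g, a2, hχ₂ g] at a1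
    have : f.range.toRepresentation.character g + W₁.toRepresentation.character g
      = f.range.toRepresentation.character g + f.ker.toRepresentation.character g := by
      rw [a1, add_comm]
    exact (add_left_cancel this).symm
  have hlt : finrank k f.ker.toSubmodule < n := by
    rw [← hn]
    apply Submodule.finrank_lt
    intro htop
    apply hf
    ext x
    have : x ∈ f.ker.toSubmodule := by rw [htop]; trivial
    simpa using (IntertwiningMap.mem_ker ρ σ f _).1 this
  obtain ⟨e₁⟩ := ih _ hlt f.ker.toSubmodule W₁.toSubmodule f.ker.toRepresentation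
    W₁.toRepresentation rfl hχ₁
  let π := Submodule.projectionOnto _ _ hcV
  let F : IntertwiningMap ρ σ :=
    { toLinearMap := f.toLinearMap + W₁.toSubmodule.subtype ∘ₗ e₁.toLinearMap ∘ₗ π
      isIntertwining' := by
        intro g
        ext x
        have b1 : f (ρ g x) = σ g (f x) := IntertwiningMap.isIntertwining ρ σ f g x
        have b2 : π (ρ g x) = f.ker.toRepresentation g (π x) := linearProj_equivariant ρ _ _ hcV g x
        have b3 : e₁ (f.ker.toRepresentation g (π x)) = W₁.toRepresentation g (e₁ (π x)) :=
          IntertwiningMap.isIntertwining _ _ e₁.toIntertwiningMap g (π x)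
        change f (ρ g x) + ((e₁ (π (ρ g x)) : W₁.toSubmodule) : W)
          = σ g (f x + ((e₁ (π x) : W₁.toSubmodule) : W))
        rw [b1, b2, b3, map_add]
        rfl }
  refine ⟨F, ?_⟩
  intro x y hxy
  have c0 : F (x - y) = 0 := by rw [map_sub, hxy, sub_self]
  set z := x - y with hz
  have c1 : f z + ((e₁ (π z) : W₁.toSubmodule) : W) = 0 := c0
  have c2 : f z ∈ f.range.toSubmodule ⊓ W₁.toSubmodule := by
    refine ⟨(IntertwiningMap.mem_range ρ σ f _).2 ⟨z, rfl⟩, ?_⟩
    rw [eq_neg_of_add_eq_zero_left c1]
    exact W₁.toSubmodule.neg_mem (e₁ (π z)).2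
  rw [hcW.inf_eq_bot, Submodule.mem_bot] at c2
  rw [c2, zero_add] at c1
  have c3 : e₁ (π z) = 0 := Subtype.ext c1
  have c4 : π z = 0 := by
    have := congrArg e₁.symm c3
    simpa using this
  have c5 : z ∈ f.ker.toSubmodule := (IntertwiningMap.mem_ker ρ σ f _).2 c2
  have c6 : π z = ⟨z, c5⟩ := Submodule.projectionOnto_apply_left hcV ⟨z, c5⟩
  rw [c4] at c6
  have c7 : z = 0 := (congrArg Subtype.val c6).symm
  exact sub_eq_zero.1 c7

/-- **Equal characters imply isomorphic** (finite group, characteristic zero, any field). -/
theorem nonempty_equiv_of_character_eq [CharZero k] [Finite G] {V : Type v} {W : Type v'}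
    [AddCommGroup V] [Module k V] [FiniteDimensional k V]
    [AddCommGroup W] [Module k W] [FiniteDimensional k W] (ρ : Representation k G V)
    (σ : Representation k G W) (h : ∀ g, ρ.character g = σ.character g) :
    Nonempty (Representation.Equiv ρ σ) := by
  have := Fintype.ofFinite G
  exact nonempty_equiv_aux _ V W ρ σ rfl h

end

/-- (K1) equal characters ⟹ isomorphic (over any field of characteristic zero). -/
theorem exists_equiv_of_trace_eq {k G V W : Type} [Field k] [CharZero k] [Group G] [Finite G]
    [AddCommGroup V] [Module k V] [FiniteDimensional k V]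
    [AddCommGroup W] [Module k W] [FiniteDimensional k W]
    (ρ : Representation k G V) (σ : Representation k G W)
    (h : ∀ g, LinearMap.trace k V (ρ g) = LinearMap.trace k W (σ g)) :
    ∃ f : V ≃ₗ[k] W, ∀ g v, f (ρ g v) = σ g (f v) := by
  obtain ⟨e⟩ := nonempty_equiv_of_character_eq ρ σ h
  exact ⟨e.toLinearEquiv, fun g v => IntertwiningMap.isIntertwining ρ σ e.toIntertwiningMap g v⟩

end Fermat.Agent.S56.EC.Ind
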