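/-
S56 / block EC-IND, node (K2b) : clearing denominators of a `ℚ`-linear map `Map(X, ℚ) → Map(Y, ℚ)`.
-/
import Fermat.Agent.S56.EC.Ind.Defs

set_option autoImplicit false

namespace Fermat.Agent.S56.EC.Ind

open Fermat.Agent.S55

/-- The inclusion `Map(X, ℤ) → Map(X, ℚ)`. -/
def castQ (D : Type) [Group D] (X : Type) [MulAction D X] : PFun ℤ X →+[D] PFun ℚ X where
  toFun u := PFun.of fun x => (u x : ℚ)
  map_smul' _ _ := rfl
  map_zero' := by
    ext x
    exact Int.cast_zero
  map_add' u v := by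
    ext x
    exact Int.cast_add _ _

@[simp] theorem castQ_apply (D : Type) [Group D] (X : Type) [MulAction D X] (u : PFun ℤ X)
    (x : X) : castQ D X u x = (u x : ℚ) := rfl

theorem castQ_injective (D : Type) [Group D] (X : Type) [MulAction D X] :
    Function.Injective (castQ D X) := by
  intro u v h
  ext x
  exact Int.cast_injective (α := ℚ) (DFunLike.congr_fun h x)

theorem Denom.exists_int (q : ℚ) (m : ℕ) (h : q.den ∣ m) : ∃ c : ℤ, (c : ℚ) = m * q := by
  obtain ⟨t, rfl⟩ := h
  refine ⟨t * q.num, ?_⟩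
  push_cast
  rw [← Rat.den_mul_eq_num q]
  ring

/-- evaluation at a point, as an additive map -/
def Denom.evalHom (Y : Type) (y : Y) : PFun ℚ Y →+ ℚ where
  toFun g := g y
  map_zero' := rfl
  map_add' _ _ := rfl

theorem Denom.sum_apply {ι Y : Type} (s : Finset ι) (g : ι → PFun ℚ Y) (y : Y) :
    (∑ i ∈ s, g i) y = ∑ i ∈ s, g i y :=
  map_sum (Denom.evalHom Y y) g s

/-- (K2b) a positive multiple of a `ℚ`-linear map preserves the integral functions. -/
theorem exists_int_multiple (D : Type) [Group D] (X Y : Type) [MulAction D X] [MulAction D Y]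
    [Finite X] [Finite Y] (f : PFun ℚ X →ₗ[ℚ] PFun ℚ Y) :
    ∃ m : ℕ, m ≠ 0 ∧ ∀ u : PFun ℤ X, ∃ v : PFun ℤ Y, castQ D Y v = m • f (castQ D X u) := by
  classical
  haveI := Fintype.ofFinite X
  haveI := Fintype.ofFinite Y
  let m : ℕ := ∏ x : X, ∏ y : Y, (f (PFun.single x) y).den
  have hm : m ≠ 0 := Finset.prod_ne_zero_iff.mpr fun x _ =>
    Finset.prod_ne_zero_iff.mpr fun y _ => Rat.den_nz _
  have hdvd : ∀ (x : X) (y : Y), (f (PFun.single x) y).den ∣ m := fun x y =>
    (Finset.dvd_prod_of_mem (fun y : Y => (f (PFun.single x) y).den) (Finset.mem_univ y)).trans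
      (Finset.dvd_prod_of_mem (fun x : X => ∏ y : Y, (f (PFun.single x) y).den)
        (Finset.mem_univ x))
  choose c hc using fun (x : X) (y : Y) => Denom.exists_int _ m (hdvd x y)
  refine ⟨m, hm, fun u => ⟨PFun.of fun y => ∑ x, u x * c x y, ?_⟩⟩
  have hu : castQ D X u = ∑ x, (u x : ℚ) • (PFun.single x : PFun ℚ X) := by
    ext z
    rw [castQ_apply, Denom.sum_apply]
    simp [PFun.single_apply]
  ext y
  rw [hu, map_sum, PFun.nsmul_apply, Denom.sum_apply, castQ_apply, PFun.of_apply, Int.cast_sum,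
    Finset.smul_sum]
  refine Finset.sum_congr rfl fun x _ => ?_
  rw [map_smul, PFun.smul_apply', Int.cast_mul, hc, nsmul_eq_mul]
  ring

end Fermat.Agent.S56.EC.Ind
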