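/-
S56 / block EC-IND : lifting an equivariant map through an injective equivariant map (DIV), and
extension of additive maps with values in a group killed by `p` (EXT).
-/
import Fermat.Agent.S56.EC.Ind.Defs
import Fermat.Agent.S55.Formal.HomDual

set_option autoImplicit false

namespace Fermat.Agent.S56.EC.Ind

open Fermat.Agent.S55

/-- (DIV) `f : C → B` with image inside the image of the injective map `φ : A → B` factors
through `φ`. -/
theorem exists_lift {D A B C : Type} [Group D] [AddCommGroup A] [DistribMulAction D A]
    [AddCommGroup B] [DistribMulAction D B] [AddCommGroup C] [DistribMulAction D C]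
    (φ : A →+[D] B) (hφ : Function.Injective φ) (f : C →+[D] B) (h : ∀ c, ∃ a, φ a = f c) :
    ∃ χ : C →+[D] A, ∀ c, φ (χ c) = f c := by
  choose χ hχ using h
  exact ⟨{ toFun := χ
           map_smul' := fun d c => hφ (by
             rw [hχ, map_smul, MonoidHom.id_apply, map_smul, hχ])
           map_zero' := hφ (by rw [hχ, map_zero, map_zero])
           map_add' := fun x y => hφ (by rw [hχ, map_add, map_add, hχ, hχ]) }, hχ⟩

/-- (EXT) `f : B → N` (`N` killed by `p`) extends along `π : B → A` as soon as it kills
`π⁻¹(pA)`. -/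
theorem exists_extend (p : ℕ) [Fact p.Prime] {A B N : Type} [AddCommGroup A] [AddCommGroup B]
    [AddCommGroup N] (hN : ∀ n : N, p • n = 0) (π : B →+ A) (f : B →+ N)
    (hf : ∀ b a, π b = p • a → f b = 0) : ∃ g : A →+ N, ∀ b, g (π b) = f b := by
  let P : AddSubgroup A := (nsmulAddMonoidHom p : A →+ A).range
  let K : AddSubgroup B := P.comap π
  have hP : ∀ a : A, p • a ∈ P := fun a => ⟨a, rfl⟩
  let j : B ⧸ K →+ A ⧸ P := QuotientAddGroup.map K P π le_rfl
  have hjmk : ∀ b : B, j (QuotientAddGroup.mk b) = QuotientAddGroup.mk (π b) := fun b => rfl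
  have hj : Function.Injective j := by
    rw [injective_iff_map_eq_zero]
    intro w hw
    induction w using QuotientAddGroup.induction_on with
    | H b =>
      rw [hjmk, QuotientAddGroup.eq_zero_iff] at hw
      exact (QuotientAddGroup.eq_zero_iff b).mpr hw
  have hW : ∀ w : B ⧸ K, p • w = 0 := by
    intro w
    induction w using QuotientAddGroup.induction_on with
    | H b =>
      rw [← QuotientAddGroup.mk_nsmul, QuotientAddGroup.eq_zero_iff]
      show π (p • b) ∈ P
      rw [map_nsmul]
      exact hP _
  have hV : ∀ v : A ⧸ P, p • v = 0 := by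
    intro v
    induction v using QuotientAddGroup.induction_on with
    | H a =>
      rw [← QuotientAddGroup.mk_nsmul, QuotientAddGroup.eq_zero_iff]
      exact hP _
  obtain ⟨r, hr⟩ := Formal.exists_leftInverse p hW hV j hj
  let fbar : B ⧸ K →+ N := QuotientAddGroup.lift K f (by
    rintro b ⟨a, ha⟩
    exact hf b a ha.symm)
  refine ⟨fbar.comp (r.comp (QuotientAddGroup.mk' P)), fun b => ?_⟩
  show fbar (r (QuotientAddGroup.mk (π b))) = f b
  rw [← hjmk, hr]
  rfl

end Fermat.Agent.S56.EC.Ind
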