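/-
S56 / block EC-IND, node (K2a) : the permutation representation on `Map(X, ℚ)` and its character.
-/
import Fermat.Agent.S56.EC.Ind.Defs

set_option autoImplicit false

namespace Fermat.Agent.S56.EC.Ind

open Fermat.Agent.S55

variable {D : Type} [Group D]

/-- The permutation representation of `D` on `Map(X, ℚ)`. -/
def permRep (X : Type) [MulAction D X] : Representation ℚ D (PFun ℚ X) where
  toFun g :=
    { toFun := fun f => g • f
      map_add' := fun f f' => smul_add g f f'
      map_smul' := fun _ _ => rfl }
  map_one' := by
    ext f : 1
    exact one_smul D f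
  map_mul' g h := by
    ext f : 1
    exact mul_smul g h f

@[simp] theorem permRep_apply (X : Type) [MulAction D X] (g : D) (f : PFun ℚ X) :
    permRep X g f = g • f := rfl

instance (X : Type) [Finite X] : FiniteDimensional ℚ (PFun ℚ X) :=
  inferInstanceAs (FiniteDimensional ℚ (X → ℚ))

/-- (K2a) the character of the permutation representation is the number of fixed points. -/
theorem trace_permRep (X : Type) [MulAction D X] [Finite X] (g : D) :
    LinearMap.trace ℚ (PFun ℚ X) (permRep X g) = (mark X g : ℚ) := by
  classical
  have := Fintype.ofFinite X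
  let b : Module.Basis X ℚ (PFun ℚ X) := Pi.basisFun ℚ X
  have h : ∀ x, (LinearMap.toMatrix b b (permRep X g)) x x = if g • x = x then 1 else 0 := by
    intro x
    rw [LinearMap.toMatrix_apply]
    have h1 : b x = (PFun.single x : PFun ℚ X) := Pi.basisFun_apply ℚ X x
    have h2 : ∀ f : PFun ℚ X, b.repr f x = f x := fun f => Pi.basisFun_repr ℚ X f x
    rw [h2, h1, permRep_apply, PFun.smul_single, PFun.single_apply]
    simp only [eq_comm]
  rw [LinearMap.trace_eq_matrix_trace ℚ b, Matrix.trace]
  simp only [Matrix.diag_apply, h]
  rw [Finset.sum_boole, mark, Nat.card_eq_fintype_card, Fintype.card_subtype]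
  rfl

end Fermat.Agent.S56.EC.Ind
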