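/-
S56 / block EC-IND, node (K2) : two finite `D`-sets with the same marks have isogenous permutation
lattices.
-/
import Fermat.Agent.S56.EC.Ind.CharIso
import Fermat.Agent.S56.EC.Ind.PermTrace
import Fermat.Agent.S56.EC.Ind.Denom
import Fermat.Agent.S56.EC.Ind.Lift

set_option autoImplicit false

namespace Fermat.Agent.S56.EC.Ind

open Fermat.Agent.S55

/-- `u ↦ m • F (u)` for an equivariant `ℚ`-linear map `F`, on the integral functions. -/
def latMapsAux {D : Type} [Group D] (X Y : Type) [MulAction D X] [MulAction D Y]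
    (F : PFun ℚ X →ₗ[ℚ] PFun ℚ Y) (hF : ∀ (g : D) (v : PFun ℚ X), F (g • v) = g • F v) (m : ℕ) :
    PFun ℤ X →+[D] PFun ℚ Y where
  toFun u := m • F (castQ D X u)
  map_smul' g u := by
    show m • F (castQ D X (g • u)) = g • (m • F (castQ D X u))
    rw [map_smul, hF, smul_comm]
  map_zero' := by
    show m • F (castQ D X 0) = 0
    rw [map_zero, map_zero, smul_zero]
  map_add' u v := by
    show m • F (castQ D X (u + v)) = m • F (castQ D X u) + m • F (castQ D X v)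
    rw [map_add, map_add, smul_add]

theorem latMapsAux_apply {D : Type} [Group D] (X Y : Type) [MulAction D X] [MulAction D Y]
    (F : PFun ℚ X →ₗ[ℚ] PFun ℚ Y) (hF : ∀ (g : D) (v : PFun ℚ X), F (g • v) = g • F v) (m : ℕ)
    (u : PFun ℤ X) : latMapsAux X Y F hF m u = m • F (castQ D X u) := rfl

/-- (K2) -/
theorem exists_lattice_maps {D : Type} [Group D] [Finite D] (X Y : Type) [MulAction D X]
    [MulAction D Y] [Finite X] [Finite Y] (h : ∀ g : D, mark X g = mark Y g) :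
    ∃ (φ : PFun ℤ X →+[D] PFun ℤ Y) (ψ : PFun ℤ Y →+[D] PFun ℤ X) (d : ℕ), d ≠ 0 ∧
      (∀ x, ψ (φ x) = d • x) ∧ (∀ y, φ (ψ y) = d • y) := by
  obtain ⟨F, hF⟩ := exists_equiv_of_trace_eq (permRep (D := D) X) (permRep (D := D) Y)
    (fun g => by rw [trace_permRep, trace_permRep, h g])
  have hF1 : ∀ (g : D) (v : PFun ℚ X),
      (F : PFun ℚ X →ₗ[ℚ] PFun ℚ Y) (g • v) = g • (F : PFun ℚ X →ₗ[ℚ] PFun ℚ Y) v :=
    fun g v => hF g v
  have hF2 : ∀ (g : D) (w : PFun ℚ Y),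
      (F.symm : PFun ℚ Y →ₗ[ℚ] PFun ℚ X) (g • w) = g • (F.symm : PFun ℚ Y →ₗ[ℚ] PFun ℚ X) w := by
    intro g w
    apply F.injective
    show F (F.symm (g • w)) = F (g • F.symm w)
    have h1 : F (g • F.symm w) = g • F (F.symm w) := hF g (F.symm w)
    rw [h1, F.apply_symm_apply, F.apply_symm_apply]
  obtain ⟨m1, hm1, h1⟩ := exists_int_multiple D X Y (F : PFun ℚ X →ₗ[ℚ] PFun ℚ Y)
  obtain ⟨m2, hm2, h2⟩ := exists_int_multiple D Y X (F.symm : PFun ℚ Y →ₗ[ℚ] PFun ℚ X)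
  obtain ⟨φ, hφ⟩ := exists_lift (castQ D Y) (castQ_injective D Y) (latMapsAux X Y _ hF1 m1) h1
  obtain ⟨ψ, hψ⟩ := exists_lift (castQ D X) (castQ_injective D X) (latMapsAux Y X _ hF2 m2) h2
  refine ⟨φ, ψ, m1 * m2, mul_ne_zero hm1 hm2, fun x => ?_, fun y => ?_⟩
  · apply castQ_injective D X
    rw [hψ, latMapsAux_apply, hφ, latMapsAux_apply, map_nsmul, map_nsmul]
    show m2 • m1 • F.symm (F (castQ D X x)) = _
    rw [F.symm_apply_apply, smul_smul, mul_comm]
  · apply castQ_injective D Y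
    rw [hφ, latMapsAux_apply, hψ, latMapsAux_apply, map_nsmul, map_nsmul]
    show m1 • m2 • F (F.symm (castQ D Y y)) = _
    rw [F.apply_symm_apply, smul_smul]

end Fermat.Agent.S56.EC.Ind
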