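/-
S56 / block EC-IND, node (K5a) : `φ ψ = d = ψ φ` with `d` prime to `p` gives
`e (Hom(L, N)) = e (Hom(L', N))`.
-/
import Fermat.Agent.S56.EC.Ind.Basic

set_option autoImplicit false

namespace Fermat.Agent.S56.EC.Ind

open Fermat.Agent.S55

variable {D : Type} [Group D] {p : ℕ} (E : MultFun D p)

/-- multiplication by `d` prime to `p` is invertible on a group killed by `p`. -/
theorem coprime_exists_inv {d p : ℕ} (hd : Nat.Coprime d p) {N : Type} [AddCommGroup N]
    (hN : ∀ x : N, p • x = 0) : ∃ a : ℤ, ∀ n : N, a • (d • n) = n := by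
  refine ⟨Nat.gcdA d p, fun n => ?_⟩
  have h1 : (1 : ℤ) = d * Nat.gcdA d p + p * Nat.gcdB d p := by
    have := Nat.gcd_eq_gcd_ab d p
    rw [hd.gcd_eq_one] at this
    exact_mod_cast this
  have h2 : ((p : ℤ) * Nat.gcdB d p) • n = 0 := by
    rw [mul_comm, mul_smul, natCast_zsmul, hN, smul_zero]
  calc Nat.gcdA d p • (d • n) = ((d : ℤ) * Nat.gcdA d p) • n := by
        rw [mul_comm, mul_smul, natCast_zsmul]
    _ = ((d : ℤ) * Nat.gcdA d p + p * Nat.gcdB d p) • n := by rw [add_smul, h2, add_zero]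
    _ = n := by rw [← h1, one_smul]

/-- (K5a) -/
theorem MultFun.e_hom_coprime_pair {L' L N : Type} [AddCommGroup L'] [DistribMulAction D L']
    [AddCommGroup L] [DistribMulAction D L] [AddCommGroup N] [DistribMulAction D N]
    (φ : L' →+[D] L) (ψ : L →+[D] L') (d : ℕ) (hd : Nat.Coprime d p)
    (h1 : ∀ x, ψ (φ x) = d • x) (h2 : ∀ y, φ (ψ y) = d • y) (hN : IsCp p N)
    (hL' : IsCp p (HomMod L' N)) :
    E.e (HomMod L N) = E.e (HomMod L' N) := by
  obtain ⟨a, ha⟩ := coprime_exists_inv hd hN.tors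
  refine E.e_congr (Formal.precomp N φ) ⟨?_, ?_⟩ hL'
  · intro f f' hff
    ext y
    have h3 : f (φ (ψ y)) = f' (φ (ψ y)) := DFunLike.congr_fun hff (ψ y)
    rw [h2, map_nsmul, map_nsmul] at h3
    rw [← ha (f y), h3, ha]
  · intro g
    refine ⟨HomMod.of (a • (HomMod.toHom g).comp (ψ : L →+ L')), ?_⟩
    ext x
    change a • g (ψ (φ x)) = g x
    rw [h1, map_nsmul, ha]

end Fermat.Agent.S56.EC.Ind
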