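/-
S56 / block EC-IND : basic facts on lattices: `Hom(L, N)` is in the class `Cp`, stable subgroups of
lattices are lattices, `ℤ[X]` is a lattice.
-/
import Fermat.Agent.S56.EC.Ind.Basic

set_option autoImplicit false

namespace Fermat.Agent.S56.EC.Ind

open Fermat.Agent.S55

theorem IsCp.homMod {p : ℕ} {L N : Type} [AddCommGroup L] [AddCommGroup N] (hL : IsLat L)
    (hN : IsCp p N) : IsCp p (HomMod L N) := by
  refine ⟨?_, fun u => Formal.nsmul_homMod p hN.tors u⟩
  have := hN.finite
  obtain ⟨s, hs⟩ := hL.fg.fg_top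
  refine Finite.of_injective (fun (u : HomMod L N) (x : s) => u (x : L)) ?_
  intro u v huv
  have h1 : (HomMod.toHom u).toIntLinearMap = (HomMod.toHom v).toIntLinearMap := by
    refine LinearMap.ext_on hs ?_
    intro x hx
    exact congrFun huv ⟨x, hx⟩
  ext n
  exact LinearMap.congr_fun h1 n

theorem IsLat.gsubMod {D L : Type} [Group D] [AddCommGroup L] [DistribMulAction D L]
    (hL : IsLat L) (S : GSub D L) : IsLat S.Mod := by
  have := hL.fg
  refine ⟨?_, fun n x hn hx => ?_⟩
  · exact Module.Finite.of_injective S.incl.toIntLinearMap S.incl_injective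
  · apply S.incl_injective
    rw [map_zero]
    refine hL.tf n _ hn ?_
    rw [← map_nsmul, hx, map_zero]

theorem IsLat.pfun (X : Type) [Finite X] : IsLat (PFun ℤ X) := by
  refine ⟨?_, fun n f hn hf => ?_⟩
  · exact (inferInstance : Module.Finite ℤ (X → ℤ))
  · ext x
    have h := congrArg (fun g : PFun ℤ X => g x) hf
    simp only [PFun.nsmul_apply, PFun.zero_apply, nsmul_eq_mul] at h
    rcases mul_eq_zero.1 h with h | h
    · exact absurd (by exact_mod_cast h) hn
    · exact h

end Fermat.Agent.S56.EC.Ind
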