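/-
S56 / block EC-IND, node (K5b) : the intermediate lattice `L₁ = φ(L') + p L`.
-/
import Fermat.Agent.S56.EC.Ind.Lift

set_option autoImplicit false

namespace Fermat.Agent.S56.EC.Ind

open Fermat.Agent.S55

variable {D : Type} [Group D] {L' L : Type} [AddCommGroup L'] [DistribMulAction D L']
    [AddCommGroup L] [DistribMulAction D L]

/-- `φ(L') + p L`. -/
def midSub (p : ℕ) (φ : L' →+[D] L) : GSub D L where
  carrier := {y | ∃ x z, y = φ x + p • z}
  zero_mem' := ⟨0, 0, by simp⟩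
  add_mem' := by
    rintro _ _ ⟨x, z, rfl⟩ ⟨x', z', rfl⟩
    exact ⟨x + x', z + z', by rw [map_add, smul_add]; abel⟩
  neg_mem' := by
    rintro _ ⟨x, z, rfl⟩
    exact ⟨-x, -z, by rw [map_neg, smul_neg]; abel⟩
  smul_mem' := by
    rintro g _ ⟨x, z, rfl⟩
    exact ⟨g • x, g • z, by rw [map_smul, smul_add, smul_comm]⟩

theorem mem_midSub (p : ℕ) (φ : L' →+[D] L) (y : L) :
    y ∈ (midSub p φ).toAddSubgroup ↔ ∃ x z, y = φ x + p • z := Iff.rfl

/-- multiplication by `n`, as an equivariant map. -/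
def Mid_nsmulG (D : Type) [Group D] (A : Type) [AddCommGroup A] [DistribMulAction D A] (n : ℕ) :
    A →+[D] A where
  toFun y := n • y
  map_smul' g y := by
    show n • g • y = g • n • y
    rw [smul_comm]
  map_zero' := smul_zero n
  map_add' := smul_add n

@[simp] theorem Mid_nsmulG_apply (D : Type) [Group D] (A : Type) [AddCommGroup A]
    [DistribMulAction D A] (n : ℕ) (y : A) : Mid_nsmulG D A n y = n • y := rfl

/-- The pair `L₁ ⇄ L` (inclusion, multiplication by `p`). -/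
theorem exists_mid_p_pair (p : ℕ) (φ : L' →+[D] L) :
    ∃ π : L →+[D] (midSub p φ).Mod, (∀ y, (midSub p φ).inclG (π y) = p • y) ∧
      (∀ a, π ((midSub p φ).inclG a) = p • a) := by
  refine ⟨(midSub p φ).codRestrict (Mid_nsmulG D L p)
    (fun y => ⟨0, y, by rw [map_zero, zero_add, Mid_nsmulG_apply]⟩), fun y => rfl, fun a => ?_⟩
  apply (midSub p φ).incl_injective
  show p • (midSub p φ).incl a = (midSub p φ).incl (p • a)
  rw [map_nsmul]

/-- The pair `L' ⇄ L₁` (`φ`, `ψ / p`). -/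
theorem exists_mid_pair (p : ℕ) (hp : p ≠ 0) (φ : L' →+[D] L) (ψ : L →+[D] L') (d : ℕ)
    (hL' : ∀ x : L', p • x = 0 → x = 0) (hL : ∀ y : L, p • y = 0 → y = 0)
    (h1 : ∀ x, ψ (φ x) = (p * d) • x) (h2 : ∀ y, φ (ψ y) = (p * d) • y) :
    ∃ (φ₁ : L' →+[D] (midSub p φ).Mod) (ψ₁ : (midSub p φ).Mod →+[D] L'),
      (∀ x, ψ₁ (φ₁ x) = d • x) ∧ (∀ y, φ₁ (ψ₁ y) = d • y) := by
  have hinj : Function.Injective (Mid_nsmulG D L' p) := by
    intro a b hab
    have h0 : p • (a - b) = 0 := by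
      rw [smul_sub]
      exact sub_eq_zero.mpr hab
    exact sub_eq_zero.mp (hL' _ h0)
  have hinjL : ∀ a b : L, p • a = p • b → a = b := by
    intro a b hab
    have h0 : p • (a - b) = 0 := by
      rw [smul_sub]
      exact sub_eq_zero.mpr hab
    exact sub_eq_zero.mp (hL _ h0)
  obtain ⟨ψ₁, hψ₁⟩ := exists_lift (Mid_nsmulG D L' p) hinj (ψ.comp (midSub p φ).inclG) (by
    intro c
    obtain ⟨x, z, hxz⟩ := (midSub p φ).incl_mem c
    refine ⟨d • x + ψ z, ?_⟩
    show p • (d • x + ψ z) = ψ ((midSub p φ).incl c)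
    rw [hxz, map_add, h1, map_nsmul, smul_add, mul_smul])
  have hψ₁' : ∀ c, p • ψ₁ c = ψ ((midSub p φ).incl c) := hψ₁
  refine ⟨(midSub p φ).codRestrict φ (fun x => ⟨x, 0, by rw [smul_zero, add_zero]⟩), ψ₁,
    fun x => ?_, fun y => ?_⟩
  · apply hinj
    show p • ψ₁ _ = p • d • x
    rw [hψ₁']
    show ψ (φ x) = p • d • x
    rw [h1, mul_smul]
  · apply (midSub p φ).incl_injective
    show φ (ψ₁ y) = (midSub p φ).incl (d • y)
    rw [map_nsmul]
    apply hinjL
    rw [← map_nsmul, hψ₁', h2, mul_smul]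

end Fermat.Agent.S56.EC.Ind
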