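/-
S56 / block EC-IND, node (K4) : a pair `ι : A → B`, `π : B → A` of injective equivariant maps with
`ι π = p`, `π ι = p` gives `e (Hom(A, N)) = e (Hom(B, N))`.
-/
import Fermat.Agent.S56.EC.Ind.Basic
import Fermat.Agent.S56.EC.Ind.Lift

set_option autoImplicit false

namespace Fermat.Agent.S56.EC.Ind

open Fermat.Agent.S55

variable {D : Type} [Group D] {p : ℕ} (E : MultFun D p)

/-- `ker (precomp π) = im (precomp ι)`. -/
theorem PPair_ker_iff [Fact p.Prime] {A B N : Type} [AddCommGroup A] [DistribMulAction D A]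
    [AddCommGroup B] [DistribMulAction D B] [AddCommGroup N] [DistribMulAction D N]
    (ι : A →+[D] B) (π : B →+[D] A) (hι : Function.Injective ι)
    (h1 : ∀ b, ι (π b) = p • b) (hN : IsCp p N) (u : HomMod A N) :
    Formal.precomp N π u = 0 ↔ ∃ w : HomMod B N, Formal.precomp N ι w = u := by
  constructor
  · intro hu
    obtain ⟨g, hg⟩ := exists_extend p hN.tors (ι : A →+ B) (HomMod.toHom u) (by
      intro a b hab
      have h2 : ι a = ι (π b) := by
        rw [h1]
        exact hab
      have h3 : a = π b := hι h2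
      rw [h3]
      exact DFunLike.congr_fun hu b)
    exact ⟨HomMod.of g, HomMod.ext fun a => hg a⟩
  · rintro ⟨w, rfl⟩
    ext b
    rw [Formal.precomp_apply, Formal.precomp_apply, h1, map_nsmul, hN.tors]
    rfl

/-- (K4) -/
theorem MultFun.e_hom_p_pair [Fact p.Prime] {A B N : Type} [AddCommGroup A] [DistribMulAction D A]
    [AddCommGroup B] [DistribMulAction D B] [AddCommGroup N] [DistribMulAction D N]
    (ι : A →+[D] B) (π : B →+[D] A) (hι : Function.Injective ι) (hπ : Function.Injective π)
    (h1 : ∀ b, ι (π b) = p • b) (h2 : ∀ a, π (ι a) = p • a) (hN : IsCp p N)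
    (hA : IsCp p (HomMod A N)) (hB : IsCp p (HomMod B N)) :
    E.e (HomMod A N) = E.e (HomMod B N) :=
  E.two_step (Formal.precomp N π) (Formal.precomp N ι) hA hB
    (PPair_ker_iff ι π hι h1 hN) (PPair_ker_iff π ι hπ h2 hN)

end Fermat.Agent.S56.EC.Ind
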