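/-
S56 / block EC-IND, node (K5) : `φ ψ = d = ψ φ`, `d > 0`, between lattices gives
`e (Hom(L, N)) = e (Hom(L', N))`.
-/
import Fermat.Agent.S56.EC.Ind.PPair
import Fermat.Agent.S56.EC.Ind.LatBasic
import Fermat.Agent.S56.EC.Ind.Coprime
import Fermat.Agent.S56.EC.Ind.Mid

set_option autoImplicit false

namespace Fermat.Agent.S56.EC.Ind

open Fermat.Agent.S55

variable {D : Type} [Group D] {p : ℕ} (E : MultFun D p)

/-- (K5), by induction on the exponent of `p` in `d`. -/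
theorem MultFun.Pair_e_hom_pair_aux [Fact p.Prime] {N : Type} [AddCommGroup N]
    [DistribMulAction D N] (hN : IsCp p N) (n : ℕ) :
    ∀ (L' L : Type) [AddCommGroup L'] [DistribMulAction D L']
      [AddCommGroup L] [DistribMulAction D L] (_ : IsLat L') (_ : IsLat L)
      (φ : L' →+[D] L) (ψ : L →+[D] L') (d₀ : ℕ) (_ : Nat.Coprime d₀ p)
      (_ : ∀ x, ψ (φ x) = (p ^ n * d₀) • x) (_ : ∀ y, φ (ψ y) = (p ^ n * d₀) • y),
      E.e (HomMod L N) = E.e (HomMod L' N) := by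
  have hp : p ≠ 0 := (Fact.out : p.Prime).ne_zero
  induction n with
  | zero =>
    intro L' L _ _ _ _ hL' hL φ ψ d₀ hd h1 h2
    rw [pow_zero, one_mul] at h1 h2
    exact E.e_hom_coprime_pair φ ψ d₀ hd h1 h2 hN (IsCp.homMod hL' hN)
  | succ n ih =>
    intro L' L _ _ _ _ hL' hL φ ψ d₀ hd h1 h2
    have e : p ^ (n + 1) * d₀ = p * (p ^ n * d₀) := by rw [pow_succ']; ring
    rw [e] at h1 h2
    have hL₁ : IsLat (midSub p φ).Mod := hL.gsubMod _
    obtain ⟨φ₁, ψ₁, k1, k2⟩ := exists_mid_pair p hp φ ψ (p ^ n * d₀)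
      (fun x hx => hL'.tf p x hp hx) (fun y hy => hL.tf p y hp hy) h1 h2
    have s1 : E.e (HomMod (midSub p φ).Mod N) = E.e (HomMod L' N) :=
      ih L' (midSub p φ).Mod hL' hL₁ φ₁ ψ₁ d₀ hd k1 k2
    obtain ⟨π, m1, m2⟩ := exists_mid_p_pair p φ
    have hπ : Function.Injective π := by
      intro y y' hyy
      have h3 : p • y = p • y' := by rw [← m1, ← m1, hyy]
      have h4 : p • (y - y') = 0 := by rw [smul_sub, h3, sub_self]
      exact sub_eq_zero.1 (hL.tf p _ hp h4)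
    have s2 : E.e (HomMod (midSub p φ).Mod N) = E.e (HomMod L N) :=
      E.e_hom_p_pair (midSub p φ).inclG π (GSub.inclG_injective _) hπ m1 m2 hN
        (IsCp.homMod hL₁ hN) (IsCp.homMod hL hN)
    rw [← s2, s1]

/-- (K5) -/
theorem MultFun.e_hom_pair [Fact p.Prime] {N : Type} [AddCommGroup N] [DistribMulAction D N]
    (hN : IsCp p N) (L' L : Type) [AddCommGroup L'] [DistribMulAction D L']
    [AddCommGroup L] [DistribMulAction D L] (hL' : IsLat L') (hL : IsLat L)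
    (φ : L' →+[D] L) (ψ : L →+[D] L') (d : ℕ) (hd : d ≠ 0)
    (h1 : ∀ x, ψ (φ x) = d • x) (h2 : ∀ y, φ (ψ y) = d • y) :
    E.e (HomMod L N) = E.e (HomMod L' N) := by
  have hp : p.Prime := Fact.out
  obtain ⟨n, d₀, hd₀, rfl⟩ := Nat.exists_eq_pow_mul_and_not_dvd hd p hp.ne_one
  exact E.Pair_e_hom_pair_aux hN n L' L hL' hL φ ψ d₀
    ((Nat.Prime.coprime_iff_not_dvd hp).2 hd₀).symm h1 h2

end Fermat.Agent.S56.EC.Ind
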