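/-
S56 / block EC-IND, node (K) : `e (Map(X, N))` only depends on the marks of the finite `D`-set `X`.
-/
import Fermat.Agent.S56.EC.Ind.Pair
import Fermat.Agent.S56.EC.Ind.LatMaps
import Fermat.Agent.S56.EC.Ind.HomPFun

set_option autoImplicit false

namespace Fermat.Agent.S56.EC.Ind

open Fermat.Agent.S55

variable {D : Type} [Group D] {p : ℕ} (E : MultFun D p)

/-- (K) -/
theorem MultFun.e_ind_eq_of_mark_eq [Finite D] [Fact p.Prime] (X Y : Type) [MulAction D X]
    [MulAction D Y] [Finite X] [Finite Y] (h : ∀ g : D, mark X g = mark Y g)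
    {N : Type} [AddCommGroup N] [DistribMulAction D N] (hN : IsCp p N) :
    E.e (IndMod X N) = E.e (IndMod Y N) := by
  obtain ⟨φ, ψ, d, hd, h1, h2⟩ := exists_lattice_maps X Y h
  rw [← E.e_congr (evalSingle X N) (evalSingle_bijective X N) (hN.indMod X),
    ← E.e_congr (evalSingle Y N) (evalSingle_bijective Y N) (hN.indMod Y)]
  exact (E.e_hom_pair hN _ _ (IsLat.pfun X) (IsLat.pfun Y) φ ψ d hd h1 h2).symm

end Fermat.Agent.S56.EC.Ind
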