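/-
S56 / block EC-IND : functions on a disjoint union `Σ i, Z i` of `D`-sets, filtered by the support.
-/
import Fermat.Agent.S56.EC.Ind.Basic

set_option autoImplicit false

namespace Fermat.Agent.S56.EC.Ind

open Fermat.Agent.S55

variable {D : Type} [Group D] {I : Type} (Z : I → Type) [∀ i, MulAction D (Z i)]
  (N : Type) [AddCommGroup N] [DistribMulAction D N]

/-- The functions on `Σ i, Z i` vanishing on the pieces `Z i`, `i ∉ s`. -/
def suppSub (s : Finset I) : GSub D (IndMod (Σ i, Z i) N) where
  carrier := {f | ∀ x : Σ i, Z i, x.1 ∉ s → f x = 0}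
  zero_mem' := fun _ _ => rfl
  add_mem' := by
    intro f f' hf hf' x hx
    rw [IndMod.add_apply, hf x hx, hf' x hx, add_zero]
  neg_mem' := by
    intro f hf x hx
    rw [IndMod.neg_apply, hf x hx, neg_zero]
  smul_mem' := by
    intro g f hf x hx
    rw [IndMod.smul_apply, hf (g⁻¹ • x) hx, smul_zero]

theorem mem_suppSub (s : Finset I) (f : IndMod (Σ i, Z i) N) :
    f ∈ (suppSub (D := D) Z N s).toAddSubgroup ↔ ∀ x : Σ i, Z i, x.1 ∉ s → f x = 0 := Iff.rfl

/-- The inclusion of a piece. -/
def sigmaIncl (a : I) : Z a →[D] (Σ i, Z i) where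
  toFun z := ⟨a, z⟩
  map_smul' _ _ := rfl

/-- `0 → M_s → M_{s ∪ {a}} → Map(Z a, N) → 0`. -/
theorem exists_shortExact_suppSub [DecidableEq I] [∀ i, Finite (Z i)] (s : Finset I) (a : I)
    (ha : a ∉ s) :
    ∃ (φ : (suppSub (D := D) Z N s).Mod →+[D] (suppSub (D := D) Z N (insert a s)).Mod)
      (ψ : (suppSub (D := D) Z N (insert a s)).Mod →+[D] IndMod (Z a) N), ShortExact φ ψ := by
  have hsub : ∀ f : (suppSub (D := D) Z N s).Mod,
      (suppSub (D := D) Z N s).inclG f ∈ (suppSub (D := D) Z N (insert a s)).toAddSubgroup := by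
    intro f x hx
    exact (suppSub (D := D) Z N s).incl_mem f x (fun h => hx (Finset.mem_insert_of_mem h))
  refine ⟨GSub.codRestrict (suppSub (D := D) Z N (insert a s)) (suppSub (D := D) Z N s).inclG hsub,
    (IndMod.pull N (sigmaIncl (D := D) Z a)).comp (suppSub (D := D) Z N (insert a s)).inclG,
    ?_, ?_, ?_⟩
  · intro f f' h
    apply (suppSub (D := D) Z N s).incl_injective
    exact congrArg (suppSub (D := D) Z N (insert a s)).incl h
  · intro f
    constructor
    · intro hf
      have hmem : (suppSub (D := D) Z N (insert a s)).incl f ∈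
          (suppSub (D := D) Z N s).toAddSubgroup := by
        rintro ⟨i, z⟩ hx
        by_cases hia : i = a
        · subst hia
          exact DFunLike.congr_fun hf z
        · exact (suppSub (D := D) Z N (insert a s)).incl_mem f ⟨i, z⟩ (fun h => by
            rcases Finset.mem_insert.1 h with h | h
            · exact hia h
            · exact hx h)
      exact ⟨(suppSub (D := D) Z N s).mkMod _ hmem,
        (suppSub (D := D) Z N (insert a s)).incl_injective rfl⟩
    · rintro ⟨g, rfl⟩
      ext z
      exact (suppSub (D := D) Z N s).incl_mem g ⟨a, z⟩ ha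
  · intro F
    have hinj : Function.Injective (sigmaIncl (D := D) Z a) := by
      intro z z' h
      exact eq_of_heq (Sigma.mk.inj h).2
    have hmem : IndMod.push N (sigmaIncl (D := D) Z a) F ∈
        (suppSub (D := D) Z N (insert a s)).toAddSubgroup := by
      rintro ⟨i, z⟩ hx
      rw [IndMod.push_apply]
      have : IsEmpty {y : Z a // sigmaIncl (D := D) Z a y = ⟨i, z⟩} :=
        ⟨fun y => hx (by
          have h1 : a = i := congrArg Sigma.fst y.2
          exact h1 ▸ Finset.mem_insert_self a s)⟩
      exact finsum_of_isEmpty _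
    exact ⟨(suppSub (D := D) Z N (insert a s)).mkMod _ hmem,
      IndMod.pull_push_of_injective hinj F⟩

end Fermat.Agent.S56.EC.Ind
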