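/-
S56 / block EC-IND : `e (Map(Σ i, Z i, N)) = ∏ i, e (Map(Z i, N))`, marks of a disjoint union,
disjoint unions with multiplicities.
-/
import Fermat.Agent.S56.EC.Ind.SigmaSupp

set_option autoImplicit false

namespace Fermat.Agent.S56.EC.Ind

open Fermat.Agent.S55

variable {D : Type} [Group D] {p : ℕ} (E : MultFun D p)

theorem MultFun.e_ind_sigma {I : Type} [Fintype I] (Z : I → Type) [∀ i, MulAction D (Z i)]
    [∀ i, Finite (Z i)] {N : Type} [AddCommGroup N] [DistribMulAction D N] (hN : IsCp p N) :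
    E.e (IndMod (Σ i, Z i) N) = ∏ i, E.e (IndMod (Z i) N) := by
  classical
  have hInd : IsCp p (IndMod (Σ i, Z i) N) := hN.indMod _
  have aux : ∀ s : Finset I,
      E.e (suppSub (D := D) Z N s).Mod = ∏ i ∈ s, E.e (IndMod (Z i) N) := by
    intro s
    induction s using Finset.induction_on with
    | empty =>
      have : Subsingleton (suppSub (D := D) Z N ∅).Mod := ⟨fun a b => by
        apply (suppSub (D := D) Z N ∅).incl_injective
        ext x
        rw [(suppSub (D := D) Z N ∅).incl_mem a x (Finset.notMem_empty _),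
          (suppSub (D := D) Z N ∅).incl_mem b x (Finset.notMem_empty _)]⟩
      rw [E.e_subsingleton, Finset.prod_empty]
    | insert a s ha ih =>
      obtain ⟨φ, ψ, h⟩ := exists_shortExact_suppSub (D := D) Z N s a ha
      rw [E.mul _ _ _ φ ψ (hInd.gsubMod _) h, ih, Finset.prod_insert ha, mul_comm]
  rw [← aux Finset.univ]
  symm
  exact E.e_congr (suppSub (D := D) Z N Finset.univ).inclG
    ⟨GSub.inclG_injective _, fun f => ⟨(suppSub (D := D) Z N Finset.univ).mkMod f
      (fun x hx => absurd (Finset.mem_univ _) hx), rfl⟩⟩ hInd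

theorem mark_sigma {I : Type} [Fintype I] (Z : I → Type) [∀ i, MulAction D (Z i)]
    [∀ i, Finite (Z i)] (g : D) : mark (Σ i, Z i) g = ∑ i, mark (Z i) g := by
  unfold mark
  rw [← Nat.card_sigma]
  refine Nat.card_congr
    { toFun := fun x => ⟨x.1.1, ⟨x.1.2, ?_⟩⟩
      invFun := fun y => ⟨⟨y.1, y.2.1⟩, ?_⟩
      left_inv := fun x => rfl
      right_inv := fun y => rfl }
  · obtain ⟨⟨i, z⟩, h⟩ := x
    rw [MulAction.mem_fixedBy] at h ⊢
    exact sigma_mk_injective h
  · obtain ⟨i, z, h⟩ := y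
    rw [MulAction.mem_fixedBy] at h ⊢
    exact congrArg (Sigma.mk i) h

theorem MultFun.e_ind_mult {I : Type} [Fintype I] (Z : I → Type) [∀ i, MulAction D (Z i)]
    [∀ i, Finite (Z i)] (m : I → ℕ) {N : Type} [AddCommGroup N] [DistribMulAction D N]
    (hN : IsCp p N) :
    E.e (IndMod (Σ j : (Σ i, Fin (m i)), Z j.1) N) = ∏ i, E.e (IndMod (Z i) N) ^ m i := by
  rw [E.e_ind_sigma (fun j : (Σ i, Fin (m i)) => Z j.1) hN, Fintype.prod_sigma]
  refine Finset.prod_congr rfl fun i _ => ?_
  change ∏ _y : Fin (m i), E.e (IndMod (Z i) N) = _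
  rw [Finset.prod_const, Finset.card_univ, Fintype.card_fin]

theorem mark_mult {I : Type} [Fintype I] (Z : I → Type) [∀ i, MulAction D (Z i)]
    [∀ i, Finite (Z i)] (m : I → ℕ) (g : D) :
    mark (Σ j : (Σ i, Fin (m i)), Z j.1) g = ∑ i, m i * mark (Z i) g := by
  rw [mark_sigma (fun j : (Σ i, Fin (m i)) => Z j.1) g, Fintype.sum_sigma]
  refine Finset.sum_congr rfl fun i _ => ?_
  change ∑ _y : Fin (m i), mark (Z i) g = _
  rw [Finset.sum_const, Finset.card_univ, Fintype.card_fin, smul_eq_mul]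

end Fermat.Agent.S56.EC.Ind
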