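/-
S56 / block EC-IND : a linear relation between marks gives a multiplicative relation between the
values `e (Map(Z i, N))`.
-/
import Fermat.Agent.S56.EC.Ind.Key
import Fermat.Agent.S56.EC.Ind.Sigma

set_option autoImplicit false

namespace Fermat.Agent.S56.EC.Ind

open Fermat.Agent.S55

variable {D : Type} [Group D] {p : ℕ} (E : MultFun D p)

theorem MultFun.prod_pow_eq_of_marks [Finite D] [Fact p.Prime] {I : Type} [Fintype I]
    (Z : I → Type) [∀ i, MulAction D (Z i)] [∀ i, Finite (Z i)] (m m' : I → ℕ)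
    (h : ∀ g : D, ∑ i, m i * mark (Z i) g = ∑ i, m' i * mark (Z i) g)
    {N : Type} [AddCommGroup N] [DistribMulAction D N] (hN : IsCp p N) :
    ∏ i, E.e (IndMod (Z i) N) ^ m i = ∏ i, E.e (IndMod (Z i) N) ^ m' i := by
  rw [← E.e_ind_mult Z m hN, ← E.e_ind_mult Z m' hN]
  exact E.e_ind_eq_of_mark_eq _ _ (fun g => by rw [mark_mult, mark_mult, h g]) hN

end Fermat.Agent.S56.EC.Ind
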