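/-
S56 / block EC-IND : the induction theorem for a finite group `D`.
-/
import Fermat.Agent.S56.EC.Ind.Relation
import Fermat.Agent.S56.EC.Ind.Artin
import Fermat.Agent.S56.EC.Ind.PPart

set_option autoImplicit false

namespace Fermat.Agent.S56.EC.Ind

open Fermat.Agent.S55

variable {D : Type} [Group D] {p : ℕ} (E : MultFun D p)

/-- `Map(D/D, N) = N`. -/
theorem MultFun.e_ind_top {N : Type} [AddCommGroup N] [DistribMulAction D N] (hN : IsCp p N) :
    E.e (IndMod (D ⧸ (⊤ : Subgroup D)) N) = E.e N := by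
  have hs : Subsingleton (D ⧸ (⊤ : Subgroup D)) := QuotientGroup.subsingleton_quotient_top
  refine (E.e_congr (IndMod.const (D ⧸ (⊤ : Subgroup D)) N) ⟨?_, ?_⟩ (hN.indMod _)).symm
  · intro a b h
    exact DFunLike.congr_fun h ((1 : D) : D ⧸ (⊤ : Subgroup D))
  · intro f
    refine ⟨f ((1 : D) : D ⧸ (⊤ : Subgroup D)), ?_⟩
    ext x
    rw [IndMod.const_apply, Subsingleton.elim x ((1 : D) : D ⧸ (⊤ : Subgroup D))]

/-- The induction theorem, for one module `N`. -/
theorem MultFun.eq_one_of_base [Finite D] [Fact p.Prime]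
    {N : Type} [AddCommGroup N] [DistribMulAction D N] (hN : IsCp p N)
    (hbase : ∀ C : Subgroup D, IsCyclic C → ¬ p ∣ Nat.card C → E.e (IndMod (D ⧸ C) N) = 1) :
    E.e N = 1 := by
  classical
  have : Fintype (Subgroup D) := Fintype.ofFinite _
  obtain ⟨a, ha0, ha⟩ := artin_relation D
  have hmarks : ∀ g : D, ∑ B : Subgroup D, (a B).toNat * mark (D ⧸ B) g =
      ∑ B : Subgroup D, ((-a B).toNat + (if B = ⊤ then Nat.card D else 0)) * mark (D ⧸ B) g := by
    intro g
    have e1 : ∑ B : Subgroup D, (((a B).toNat : ℤ) - ((-a B).toNat : ℤ)) * (mark (D ⧸ B) g : ℤ) =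
        (Nat.card D : ℤ) := by
      simpa only [Int.toNat_sub_toNat_neg] using ha g
    have e2 : ∑ B : Subgroup D, ((if B = ⊤ then Nat.card D else 0 : ℕ) : ℤ) * (mark (D ⧸ B) g : ℤ) =
        (Nat.card D : ℤ) := by
      rw [Finset.sum_eq_single (⊤ : Subgroup D)]
      · rw [if_pos rfl, mark_quotient_top, Nat.cast_one, mul_one]
      · intro B _ hB
        rw [if_neg hB, Nat.cast_zero, zero_mul]
      · intro h
        exact absurd (Finset.mem_univ _) h
    simp only [sub_mul, Finset.sum_sub_distrib] at e1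
    have e3 : ((∑ B : Subgroup D, (a B).toNat * mark (D ⧸ B) g : ℕ) : ℤ) =
        ((∑ B : Subgroup D, ((-a B).toNat + (if B = ⊤ then Nat.card D else 0)) * mark (D ⧸ B) g : ℕ) : ℤ) := by
      simp only [Nat.cast_sum, Nat.cast_mul, Nat.cast_add, add_mul, Finset.sum_add_distrib]
      rw [e2]
      linarith
    exact_mod_cast e3
  have hprod := E.prod_pow_eq_of_marks (fun B : Subgroup D => D ⧸ B) (fun B => (a B).toNat)
    (fun B => (-a B).toNat + (if B = ⊤ then Nat.card D else 0)) hmarks hN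
  have hε : ∀ B : Subgroup D, IsCyclic B → E.e (IndMod (D ⧸ B) N) = 1 :=
    fun B hB => E.e_ind_cyclic_eq_one hN hbase B hB
  have hL : ∏ B : Subgroup D, E.e (IndMod (D ⧸ B) N) ^ (a B).toNat = 1 := by
    refine Finset.prod_eq_one fun B _ => ?_
    by_cases hB : IsCyclic B
    · rw [hε B hB, one_pow]
    · rw [ha0 B hB, Int.toNat_zero, pow_zero]
  have hneg : ∀ B : Subgroup D, E.e (IndMod (D ⧸ B) N) ^ (-a B).toNat = 1 := by
    intro B
    by_cases hB : IsCyclic B
    · rw [hε B hB, one_pow]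
    · rw [ha0 B hB, neg_zero, Int.toNat_zero, pow_zero]
  have hR : ∏ B : Subgroup D,
      E.e (IndMod (D ⧸ B) N) ^ ((-a B).toNat + (if B = ⊤ then Nat.card D else 0)) =
      E.e (IndMod (D ⧸ (⊤ : Subgroup D)) N) ^ Nat.card D := by
    rw [Finset.prod_eq_single (⊤ : Subgroup D)]
    · rw [if_pos rfl, pow_add, hneg, one_mul]
    · intro B _ hB
      rw [if_neg hB, add_zero, hneg]
    · intro h
      exact absurd (Finset.mem_univ _) h
  rw [hL, hR] at hprod
  rw [← E.e_ind_top hN]
  exact MultFun.eq_one_of_pow_eq_one (E.pos _ (hN.indMod _)) Nat.card_pos.ne' hprod.symm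

/-- **The induction theorem** (E2). -/
theorem MultFun.eq_one [Finite D] [Fact p.Prime]
    (hbase : ∀ C : Subgroup D, IsCyclic C → ¬ p ∣ Nat.card C →
      ∀ (N : Type) [AddCommGroup N] [DistribMulAction D N], IsCp p N →
        E.e (IndMod (D ⧸ C) N) = 1)
    (N : Type) [AddCommGroup N] [DistribMulAction D N] (hN : IsCp p N) : E.e N = 1 :=
  E.eq_one_of_base hN fun C hC hpC => hbase C hC hpC N hN

end Fermat.Agent.S56.EC.Ind
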